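import Mathlib
import Fermat.Agent.LT.H556.A0

/-!
# Row LT, towers T4/T5 — local components of `GL₂(𝔸_K)` are ring homomorphisms (helper942)

OFF-MAIN.  Imports Mathlib and the frozen vocabulary `LT/H556/A0.lean` (byte-identical copy of
origin/helper556@0fa0be5a0) only.

`A0.finComp v` and `A0.infComp w` are the entrywise images of the matrix of `g ∈ GL₂(𝔸_K)` under
the ring homomorphisms `finProj942 v : 𝔸_K → K_v` and `infProj942 w : 𝔸_K → ℂ`.  Consequences:

* `finComp_mul942`, `finComp_one942`, `finComp_inv_mul942`, `finComp_mul_inv942`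
  (and the same for `infComp`): the local components are multiplicative;
* `finComp_rat942`, `infComp_rat942`: the components of a rational matrix `γ ∈ GL₂(K)`;
* `det_finComp942`, `det_infComp942`: determinant of the component = component of the determinant;
* `trace_finComp_conj942`, `det_finComp_conj942` (and `inf`): trace and determinant of the local
  components of a conjugate `g⁻¹ γ g`, `γ ∈ GL₂(K)`, `g ∈ GL₂(𝔸_K)`, are the images of
  `tr γ`, `det γ`;
* `norm_finProj_rat942`, `norm_infProj_rat942`: the norms of these images are the values of the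
  finite place `FinitePlace.mk v`, resp. of the infinite place `w`;
* `isIntegralAt_iff_norm942`, `norm_det_eq_one_of_integral942`, `norm_trace_le_one_of_integral942`:
  integrality in terms of norms; an element of `GL₂(𝒪_v)` has determinant of norm `1` and trace of
  norm `≤ 1`.
-/

set_option autoImplicit false

open IsDedekindDomain NumberField

noncomputable section

namespace Fermat.Agent.LT.H942

open Fermat.Agent.LT.H556.A0

variable {K : Type} [Field K] [NumberField K]

/-- The projection of the adele ring to the completion at the finite place `v`. -/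
def finProj942 (v : HeightOneSpectrum (𝓞 K)) : Adl K →+* v.adicCompletion K where
  toFun a := a.2 v
  map_one' := rfl
  map_mul' _ _ := rfl
  map_zero' := rfl
  map_add' _ _ := rfl

/-- The projection of the adele ring to the completion at the infinite place `w`, followed by the
embedding of the completion into `ℂ`. -/
def infProj942 (w : InfinitePlace K) : Adl K →+* ℂ :=
  (InfinitePlace.Completion.extensionEmbedding w).comp
    { toFun := fun a => a.1 w
      map_one' := rfl
      map_mul' := fun _ _ => rfl
      map_zero' := rfl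
      map_add' := fun _ _ => rfl }

@[simp] theorem finProj942_apply (v : HeightOneSpectrum (𝓞 K)) (a : Adl K) :
    finProj942 v a = a.2 v := rfl

@[simp] theorem infProj942_apply (w : InfinitePlace K) (a : Adl K) :
    infProj942 w a = InfinitePlace.Completion.extensionEmbedding w (a.1 w) := rfl

theorem finComp_eq_map942 (v : HeightOneSpectrum (𝓞 K)) (g : G K) :
    finComp v g = (g : Matrix (Fin 2) (Fin 2) (Adl K)).map (finProj942 v) := rfl

theorem infComp_eq_map942 (w : InfinitePlace K) (g : G K) :
    infComp w g = (g : Matrix (Fin 2) (Fin 2) (Adl K)).map (infProj942 w) := rfl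

/-! ## Multiplicativity -/

theorem finComp_mul942 (v : HeightOneSpectrum (𝓞 K)) (g h : G K) :
    finComp v (g * h) = finComp v g * finComp v h := by
  rw [finComp_eq_map942, finComp_eq_map942, finComp_eq_map942, Units.val_mul, Matrix.map_mul]

theorem infComp_mul942 (w : InfinitePlace K) (g h : G K) :
    infComp w (g * h) = infComp w g * infComp w h := by
  rw [infComp_eq_map942, infComp_eq_map942, infComp_eq_map942, Units.val_mul, Matrix.map_mul]

theorem finComp_one942 (v : HeightOneSpectrum (𝓞 K)) : finComp v (1 : G K) = 1 := by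
  rw [finComp_eq_map942, Units.val_one]
  exact Matrix.map_one _ (map_zero _) (map_one _)

theorem infComp_one942 (w : InfinitePlace K) : infComp w (1 : G K) = 1 := by
  rw [infComp_eq_map942, Units.val_one]
  exact Matrix.map_one _ (map_zero _) (map_one _)

theorem finComp_inv_mul942 (v : HeightOneSpectrum (𝓞 K)) (g : G K) :
    finComp v g⁻¹ * finComp v g = 1 := by
  rw [← finComp_mul942, inv_mul_cancel, finComp_one942]

theorem finComp_mul_inv942 (v : HeightOneSpectrum (𝓞 K)) (g : G K) :
    finComp v g * finComp v g⁻¹ = 1 := by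
  rw [← finComp_mul942, mul_inv_cancel, finComp_one942]

theorem infComp_inv_mul942 (w : InfinitePlace K) (g : G K) :
    infComp w g⁻¹ * infComp w g = 1 := by
  rw [← infComp_mul942, inv_mul_cancel, infComp_one942]

theorem infComp_mul_inv942 (w : InfinitePlace K) (g : G K) :
    infComp w g * infComp w g⁻¹ = 1 := by
  rw [← infComp_mul942, mul_inv_cancel, infComp_one942]

/-! ## Determinants and traces -/

theorem det_finComp942 (v : HeightOneSpectrum (𝓞 K)) (g : G K) :
    (finComp v g).det = finProj942 v (g : Matrix (Fin 2) (Fin 2) (Adl K)).det := by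
  rw [finComp_eq_map942, RingHom.map_det]; rfl

theorem det_infComp942 (w : InfinitePlace K) (g : G K) :
    (infComp w g).det = infProj942 w (g : Matrix (Fin 2) (Fin 2) (Adl K)).det := by
  rw [infComp_eq_map942, RingHom.map_det]; rfl

theorem trace_finComp942 (v : HeightOneSpectrum (𝓞 K)) (g : G K) :
    (finComp v g).trace = finProj942 v (g : Matrix (Fin 2) (Fin 2) (Adl K)).trace := by
  rw [finComp_eq_map942, AddMonoidHom.map_trace]

theorem trace_infComp942 (w : InfinitePlace K) (g : G K) :
    (infComp w g).trace = infProj942 w (g : Matrix (Fin 2) (Fin 2) (Adl K)).trace := by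
  rw [infComp_eq_map942, AddMonoidHom.map_trace]

theorem det_finComp_ne_zero942 (v : HeightOneSpectrum (𝓞 K)) (g : G K) :
    (finComp v g).det ≠ 0 := by
  intro h
  have := congrArg Matrix.det (finComp_mul_inv942 v g)
  rw [Matrix.det_mul, h, zero_mul, Matrix.det_one] at this
  exact zero_ne_one this

theorem det_infComp_ne_zero942 (w : InfinitePlace K) (g : G K) :
    (infComp w g).det ≠ 0 := by
  intro h
  have := congrArg Matrix.det (infComp_mul_inv942 w g)
  rw [Matrix.det_mul, h, zero_mul, Matrix.det_one] at this
  exact zero_ne_one this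

/-! ## Rational matrices -/

/-- The diagonal embedding `GL₂(K) → GL₂(𝔸_K)` (`= T1.ratG K`, definitionally). -/
def rat942 : GL (Fin 2) K →* G K :=
  Matrix.GeneralLinearGroup.map (algebraMap K (Adl K))

theorem finProj942_algebraMap (v : HeightOneSpectrum (𝓞 K)) (x : K) :
    finProj942 v (algebraMap K (Adl K) x) = algebraMap K (v.adicCompletion K) x := rfl

theorem infProj942_algebraMap (w : InfinitePlace K) (x : K) :
    infProj942 w (algebraMap K (Adl K) x) = w.embedding x := by
  rw [infProj942_apply]
  exact InfinitePlace.Completion.extensionEmbedding_coe w ((WithAbs.equiv w.1).symm x)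

theorem finComp_rat942 (v : HeightOneSpectrum (𝓞 K)) (γ : GL (Fin 2) K) :
    finComp v (rat942 γ) =
      (γ : Matrix (Fin 2) (Fin 2) K).map (algebraMap K (v.adicCompletion K)) := by
  ext i j
  rfl

theorem infComp_rat942 (w : InfinitePlace K) (γ : GL (Fin 2) K) :
    infComp w (rat942 γ) = (γ : Matrix (Fin 2) (Fin 2) K).map w.embedding := by
  ext i j
  show infProj942 w (algebraMap K (Adl K) ((γ : Matrix (Fin 2) (Fin 2) K) i j)) = _
  rw [infProj942_algebraMap]
  rfl

/-- Trace of the `v`-component of a conjugate of a rational matrix. -/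
theorem trace_finComp_conj942 (v : HeightOneSpectrum (𝓞 K)) (γ : GL (Fin 2) K) (g : G K) :
    (finComp v (g⁻¹ * rat942 γ * g)).trace =
      algebraMap K (v.adicCompletion K) (γ : Matrix (Fin 2) (Fin 2) K).trace := by
  rw [finComp_mul942, finComp_mul942, Matrix.trace_mul_comm, ← Matrix.mul_assoc,
    finComp_mul_inv942, Matrix.one_mul, finComp_rat942, ← AddMonoidHom.map_trace]

/-- Determinant of the `v`-component of a conjugate of a rational matrix. -/
theorem det_finComp_conj942 (v : HeightOneSpectrum (𝓞 K)) (γ : GL (Fin 2) K) (g : G K) :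
    (finComp v (g⁻¹ * rat942 γ * g)).det =
      algebraMap K (v.adicCompletion K) (γ : Matrix (Fin 2) (Fin 2) K).det := by
  have h1 : (finComp v g⁻¹).det * (finComp v g).det = 1 := by
    rw [← Matrix.det_mul, finComp_inv_mul942, Matrix.det_one]
  have h2 : (finComp v (rat942 γ)).det =
      algebraMap K (v.adicCompletion K) (γ : Matrix (Fin 2) (Fin 2) K).det := by
    rw [finComp_rat942, RingHom.map_det]; rfl
  rw [finComp_mul942, finComp_mul942, Matrix.det_mul, Matrix.det_mul, h2]
  linear_combination (algebraMap K (v.adicCompletion K) (γ : Matrix (Fin 2) (Fin 2) K).det) * h1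

/-- Trace of the `w`-component of a conjugate of a rational matrix. -/
theorem trace_infComp_conj942 (w : InfinitePlace K) (γ : GL (Fin 2) K) (g : G K) :
    (infComp w (g⁻¹ * rat942 γ * g)).trace =
      w.embedding (γ : Matrix (Fin 2) (Fin 2) K).trace := by
  rw [infComp_mul942, infComp_mul942, Matrix.trace_mul_comm, ← Matrix.mul_assoc,
    infComp_mul_inv942, Matrix.one_mul, infComp_rat942, ← AddMonoidHom.map_trace]

/-- Determinant of the `w`-component of a conjugate of a rational matrix. -/
theorem det_infComp_conj942 (w : InfinitePlace K) (γ : GL (Fin 2) K) (g : G K) :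
    (infComp w (g⁻¹ * rat942 γ * g)).det =
      w.embedding (γ : Matrix (Fin 2) (Fin 2) K).det := by
  have h1 : (infComp w g⁻¹).det * (infComp w g).det = 1 := by
    rw [← Matrix.det_mul, infComp_inv_mul942, Matrix.det_one]
  have h2 : (infComp w (rat942 γ)).det = w.embedding (γ : Matrix (Fin 2) (Fin 2) K).det := by
    rw [infComp_rat942, RingHom.map_det]; rfl
  rw [infComp_mul942, infComp_mul942, Matrix.det_mul, Matrix.det_mul, h2]
  linear_combination (w.embedding (γ : Matrix (Fin 2) (Fin 2) K).det) * h1

/-! ## Norms -/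

theorem norm_algebraMap_fin942 (v : HeightOneSpectrum (𝓞 K)) (x : K) :
    ‖algebraMap K (v.adicCompletion K) x‖ = FinitePlace.mk v x := rfl

omit [NumberField K] in
theorem norm_embedding_inf942 (w : InfinitePlace K) (x : K) : ‖w.embedding x‖ = w x :=
  InfinitePlace.norm_embedding_eq w x

theorem isIntegralAt_iff_norm942 (v : HeightOneSpectrum (𝓞 K)) (g : G K) :
    IsIntegralAt v g ↔ ∀ i j, ‖finComp v g i j‖ ≤ 1 := by
  unfold IsIntegralAt
  refine forall_congr' fun i => forall_congr' fun j => ?_
  rw [HeightOneSpectrum.mem_adicCompletionIntegers, Valued.toNormedField.norm_le_one_iff]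

/-- Ultrametric bound for the determinant of an integral `2 × 2` matrix. -/
theorem norm_det_le_one942 (v : HeightOneSpectrum (𝓞 K))
    (m : Matrix (Fin 2) (Fin 2) (v.adicCompletion K)) (hm : ∀ i j, Valued.v (m i j) ≤ 1) :
    Valued.v m.det ≤ 1 := by
  rw [Matrix.det_fin_two]
  have h1 : Valued.v (m 0 0 * m 1 1) ≤ 1 := by
    rw [map_mul]; exact mul_le_one' (hm 0 0) (hm 1 1)
  have h2 : Valued.v (m 0 1 * m 1 0) ≤ 1 := by
    rw [map_mul]; exact mul_le_one' (hm 0 1) (hm 1 0)
  exact le_trans (Valuation.map_sub _ _ _) (max_le h1 h2)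

/-- Ultrametric bound for the trace of an integral `2 × 2` matrix. -/
theorem norm_trace_le_one942 (v : HeightOneSpectrum (𝓞 K))
    (m : Matrix (Fin 2) (Fin 2) (v.adicCompletion K)) (hm : ∀ i j, Valued.v (m i j) ≤ 1) :
    Valued.v m.trace ≤ 1 := by
  rw [Matrix.trace_fin_two]
  exact le_trans (Valuation.map_add _ _ _) (max_le (hm 0 0) (hm 1 1))

/-- An element of `GL₂(𝒪_v)` has a determinant of valuation `1`. -/
theorem valued_det_eq_one_of_integral942 (v : HeightOneSpectrum (𝓞 K)) (g : G K)
    (h1 : IsIntegralAt v g) (h2 : IsIntegralAt v g⁻¹) :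
    Valued.v (finComp v g).det = 1 := by
  have hd1 : Valued.v (finComp v g).det ≤ 1 :=
    norm_det_le_one942 v _ fun i j =>
      (HeightOneSpectrum.mem_adicCompletionIntegers _ _ _).1 (h1 i j)
  have hd2 : Valued.v (finComp v g⁻¹).det ≤ 1 :=
    norm_det_le_one942 v _ fun i j =>
      (HeightOneSpectrum.mem_adicCompletionIntegers _ _ _).1 (h2 i j)
  have hmul : Valued.v (finComp v g).det * Valued.v (finComp v g⁻¹).det = 1 := by
    rw [← map_mul, ← Matrix.det_mul, finComp_mul_inv942, Matrix.det_one, map_one]
  refine le_antisymm hd1 ?_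
  by_contra hlt
  rw [not_le] at hlt
  have : Valued.v (finComp v g).det * Valued.v (finComp v g⁻¹).det < 1 := by
    calc Valued.v (finComp v g).det * Valued.v (finComp v g⁻¹).det
        ≤ Valued.v (finComp v g).det * 1 := mul_le_mul_right hd2 _
      _ = Valued.v (finComp v g).det := mul_one _
      _ < 1 := hlt
  rw [hmul] at this
  exact lt_irrefl _ this

theorem valued_trace_le_one_of_integral942 (v : HeightOneSpectrum (𝓞 K)) (g : G K)
    (h1 : IsIntegralAt v g) : Valued.v (finComp v g).trace ≤ 1 :=
  norm_trace_le_one942 v _ fun i j =>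
    (HeightOneSpectrum.mem_adicCompletionIntegers _ _ _).1 (h1 i j)

theorem norm_eq_one_iff_valued942 (v : HeightOneSpectrum (𝓞 K)) (x : v.adicCompletion K) :
    ‖x‖ = 1 ↔ Valued.v x = 1 := by
  constructor
  · intro h
    refine le_antisymm (Valued.toNormedField.norm_le_one_iff.1 h.le) ?_
    by_contra hlt
    rw [not_le] at hlt
    have := Valued.toNormedField.norm_lt_one_iff.2 hlt
    rw [h] at this
    exact lt_irrefl _ this
  · intro h
    refine le_antisymm (Valued.toNormedField.norm_le_one_iff.2 h.le) ?_
    by_contra hlt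
    rw [not_le] at hlt
    have := Valued.toNormedField.norm_lt_one_iff.1 hlt
    rw [h] at this
    exact lt_irrefl _ this

theorem norm_det_eq_one_of_integral942 (v : HeightOneSpectrum (𝓞 K)) (g : G K)
    (h1 : IsIntegralAt v g) (h2 : IsIntegralAt v g⁻¹) : ‖(finComp v g).det‖ = 1 :=
  (norm_eq_one_iff_valued942 v _).2 (valued_det_eq_one_of_integral942 v g h1 h2)

theorem norm_trace_le_one_of_integral942 (v : HeightOneSpectrum (𝓞 K)) (g : G K)
    (h1 : IsIntegralAt v g) : ‖(finComp v g).trace‖ ≤ 1 :=
  Valued.toNormedField.norm_le_one_iff.2 (valued_trace_le_one_of_integral942 v g h1)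

end Fermat.Agent.LT.H942

end
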