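import Mathlib

/-!
# Row LT, towers T4/T5 — the arithmetic core of "regular ⇒ elliptic" (helper942)

OFF-MAIN.  Mathlib only.

`γ ∈ GL₂(K)`, `t = (tr γ)² / det γ`.  If the characteristic polynomial of `γ` splits over `K`, with
roots `λ₁, λ₂`, then `r = λ₂ / λ₁ ∈ Kˣ` satisfies `r + 2 + r⁻¹ = t`.  The product formula bounds
`|t|_u` at ONE finite place `u` by the sizes of `t` at the other places:

* `finitePlace_ratio_le`   : nonarchimedean place, `|r + 2 + r⁻¹| ≤ B`, `1 ≤ B` ⟹ `|r| ≤ B`;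
* `infinitePlace_ratio_le` : archimedean place, `|r + 2 + r⁻¹| ≤ B` ⟹ `|r| ≤ B + 3`;
* `finitePlace_le_of_bounds` : product formula, `|r|_u ≤ C ^ ([K : ℚ] + #S)`;
* `regular_core` : if `|t|_v ≤ 1` at the finite places `v ∉ S ∪ {u}`, `|t|_v ≤ B` at `v ∈ S` and at
  the infinite places, then `|t|_u ≤ (B + 3) ^ ([K : ℚ] + #S)`;
* `regular_no_split` : so if `|t|_u` is larger than that bound, `t ≠ r + 2 + r⁻¹` for every
  `r ∈ Kˣ`; `regular_charpoly_no_root`: the matrix form, for `γ : Matrix (Fin 2) (Fin 2) K`.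

This is FACT 4 of `origin/helper261:coord/LT-A3-EK-helper261.md` ([F] §1) in its place-by-place
form: at `u` a regular Iwahori element has unit trace and determinant of valuation `m`, so
`|t|_u = q_u ^ m`.
-/

set_option autoImplicit false

namespace Fermat.Agent.LT.H942

open NumberField

variable {K : Type*} [Field K] [NumberField K]

/-- Nonarchimedean place: `|r + 2 + r⁻¹| ≤ B`, `1 ≤ B` ⟹ `|r| ≤ B`. -/
theorem finitePlace_ratio_le (v : FinitePlace K) {r : K} {B : ℝ} (hB : 1 ≤ B)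
    (ht : v (r + 2 + r⁻¹) ≤ B) : v r ≤ B := by
  by_contra hlt
  rw [not_le] at hlt
  have hr1 : 1 < v r := lt_of_le_of_lt hB hlt
  have hrpos : 0 < v r := lt_trans one_pos hr1
  -- `r = t - 2 - r⁻¹`
  have h2 : v (2 : K) ≤ 1 := by
    have := FinitePlace.add_le v (1 : K) 1
    have h1 : v (1 : K) = 1 := map_one v
    rw [h1, max_self] at this
    have e : (2 : K) = 1 + 1 := by norm_num
    rw [e]; exact this
  have hinv : v r⁻¹ < 1 := by
    rw [map_inv₀]
    exact inv_lt_one_of_one_lt₀ hr1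
  have key : r = (r + 2 + r⁻¹) + (-(2 : K) + -r⁻¹) := by ring
  have hle : v r ≤ max (v (r + 2 + r⁻¹)) (v (-(2 : K) + -r⁻¹)) := by
    conv_lhs => rw [key]
    exact FinitePlace.add_le v _ _
  have hle2 : v (-(2 : K) + -r⁻¹) ≤ max (v (-(2 : K))) (v (-r⁻¹)) := FinitePlace.add_le v _ _
  have hn2 : v (-(2 : K)) = v 2 := by
    rw [show (-(2:K)) = (-1) * 2 by ring, map_mul]
    have : v (-1 : K) = 1 := by
      have hsq : v (-1 : K) * v (-1 : K) = 1 := by
        rw [← map_mul]; simp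
      have hnn : 0 ≤ v (-1 : K) := apply_nonneg v _
      nlinarith [hsq, hnn]
    rw [this, one_mul]
  have hninv : v (-r⁻¹) = v r⁻¹ := by
    rw [show (-r⁻¹) = (-1) * r⁻¹ by ring, map_mul]
    have : v (-1 : K) = 1 := by
      have hsq : v (-1 : K) * v (-1 : K) = 1 := by
        rw [← map_mul]; simp
      have hnn : 0 ≤ v (-1 : K) := apply_nonneg v _
      nlinarith [hsq, hnn]
    rw [this, one_mul]
  rw [hn2, hninv] at hle2
  have hsmall : v (-(2 : K) + -r⁻¹) ≤ 1 := le_trans hle2 (max_le h2 hinv.le)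
  have : v r ≤ B := le_trans hle (max_le ht (le_trans hsmall hB))
  exact absurd this (not_le.mpr hlt)

/-- Archimedean place: `|r + 2 + r⁻¹| ≤ B` ⟹ `|r| ≤ B + 3`. -/
theorem infinitePlace_ratio_le (w : InfinitePlace K) {r : K} {B : ℝ}
    (ht : w (r + 2 + r⁻¹) ≤ B) : w r ≤ B + 3 := by
  have hB0 : 0 ≤ B := le_trans (apply_nonneg w _) ht
  by_cases h1 : w r ≤ 1
  · linarith
  · rw [not_le] at h1
    have hinv : w r⁻¹ ≤ 1 := by
      rw [map_inv₀]
      exact (inv_lt_one_of_one_lt₀ h1).le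
    have h2 : w (2 : K) ≤ 2 := by
      have := w.1.add_le (1 : K) 1
      have h11 : w (1 : K) = 1 := map_one w
      have e : (2 : K) = 1 + 1 := by norm_num
      rw [e]
      calc w ((1 : K) + 1) ≤ w 1 + w 1 := this
        _ = 2 := by rw [h11]; norm_num
    have key : r = (r + 2 + r⁻¹) + (-(2 : K) + -r⁻¹) := by ring
    have hneg : ∀ x : K, w (-x) = w x := fun x => by
      have := w.1.map_neg x
      exact this
    calc w r = w ((r + 2 + r⁻¹) + (-(2 : K) + -r⁻¹)) := by rw [← key]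
      _ ≤ w (r + 2 + r⁻¹) + w (-(2 : K) + -r⁻¹) := w.1.add_le _ _
      _ ≤ w (r + 2 + r⁻¹) + (w (-(2 : K)) + w (-r⁻¹)) := by
          have h3 : w (-(2 : K) + -r⁻¹) ≤ w (-(2 : K)) + w (-r⁻¹) := w.1.add_le _ _
          linarith
      _ = w (r + 2 + r⁻¹) + (w 2 + w r⁻¹) := by rw [hneg, hneg]
      _ ≤ B + 3 := by linarith

/-- **Product formula bound.**  If `|r|_v = 1` at the finite places `v ∉ S ∪ {u}`, and
`|r|_v⁻¹ ≤ C` at the places of `S` and at the infinite places, then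
`|r|_u ≤ C ^ ([K : ℚ] + #S)`. -/
theorem finitePlace_le_of_bounds [DecidableEq (FinitePlace K)] (u : FinitePlace K)
    (S : Finset (FinitePlace K)) {C : ℝ} (hC : 1 ≤ C) {r : K} (hr : r ≠ 0)
    (hout : ∀ v : FinitePlace K, v ≠ u → v ∉ S → v r = 1)
    (hS : ∀ v ∈ S, v ≠ u → (v r)⁻¹ ≤ C)
    (hinf : ∀ w : InfinitePlace K, (w r)⁻¹ ≤ C) :
    u r ≤ C ^ (Module.finrank ℚ K + S.card) := by
  classical
  have hC0 : 0 < C := lt_of_lt_of_le one_pos hC
  have hpf := NumberField.prod_abs_eq_one (K := K) hr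
  -- the finite part
  have hsupp : Function.mulSupport (fun v : FinitePlace K => v r) ⊆
      ((insert u (S.erase u) : Finset (FinitePlace K)) : Set (FinitePlace K)) := by
    intro v hv
    rw [Function.mem_mulSupport] at hv
    by_cases hvu : v = u
    · simp [hvu]
    · by_cases hvS : v ∈ S
      · simp [hvu, hvS]
      · exact absurd (hout v hvu hvS) hv
  have hfin : ∏ᶠ v : FinitePlace K, v r = u r * ∏ v ∈ S.erase u, v r := by
    rw [finprod_eq_prod_of_mulSupport_subset _ hsupp, Finset.prod_insert (by simp)]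
  rw [hfin] at hpf
  have hIpos : 0 < ∏ w : InfinitePlace K, w r ^ w.mult :=
    Finset.prod_pos fun w _ => pow_pos (InfinitePlace.pos_iff.mpr hr) _
  have hSpos : 0 < ∏ v ∈ S.erase u, v r :=
    Finset.prod_pos fun v _ => FinitePlace.pos_iff.mpr hr
  have hu : u r = (∏ w : InfinitePlace K, w r ^ w.mult)⁻¹ * (∏ v ∈ S.erase u, v r)⁻¹ := by
    have hne1 : (∏ w : InfinitePlace K, w r ^ w.mult) ≠ 0 := hIpos.ne'
    have hne2 : (∏ v ∈ S.erase u, v r) ≠ 0 := hSpos.ne'
    field_simp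
    linear_combination hpf
  have hI : (∏ w : InfinitePlace K, w r ^ w.mult)⁻¹ ≤ C ^ Module.finrank ℚ K := by
    rw [← Finset.prod_inv_distrib, ← InfinitePlace.sum_mult_eq (K := K), ← Finset.prod_pow_eq_pow_sum]
    apply Finset.prod_le_prod
    · intro w _
      exact inv_nonneg.mpr (pow_nonneg (apply_nonneg w r) _)
    · intro w _
      rw [← inv_pow]
      exact pow_le_pow_left₀ (inv_nonneg.mpr (apply_nonneg w r)) (hinf w) _
  have hSb : (∏ v ∈ S.erase u, v r)⁻¹ ≤ C ^ S.card := by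
    rw [← Finset.prod_inv_distrib]
    calc ∏ v ∈ S.erase u, (v r)⁻¹ ≤ ∏ _v ∈ S.erase u, C := by
          apply Finset.prod_le_prod
          · intro v _
            exact inv_nonneg.mpr (apply_nonneg v r)
          · intro v hv
            exact hS v (Finset.mem_of_mem_erase hv) (Finset.ne_of_mem_erase hv)
      _ = C ^ (S.erase u).card := by rw [Finset.prod_const]
      _ ≤ C ^ S.card := pow_le_pow_right₀ hC (Finset.card_erase_le)
  rw [hu, pow_add]
  exact mul_le_mul hI hSb (inv_nonneg.mpr hSpos.le) (pow_nonneg hC0.le _)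

/-- **Regular core.**  `t = r + 2 + r⁻¹` with `r ∈ Kˣ`; if `|t|_v ≤ 1` at the finite places
`v ∉ S ∪ {u}` and `|t|_v ≤ B` at the places of `S` and at the infinite places (`1 ≤ B`), then
`|t|_u ≤ (B + 3) ^ ([K : ℚ] + #S)`. -/
theorem regular_core [DecidableEq (FinitePlace K)] (u : FinitePlace K)
    (S : Finset (FinitePlace K)) {B : ℝ} (hB : 1 ≤ B) {r : K} (hr : r ≠ 0)
    (hout : ∀ v : FinitePlace K, v ≠ u → v ∉ S → v (r + 2 + r⁻¹) ≤ 1)
    (hS : ∀ v ∈ S, v ≠ u → v (r + 2 + r⁻¹) ≤ B)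
    (hinf : ∀ w : InfinitePlace K, w (r + 2 + r⁻¹) ≤ B) :
    u (r + 2 + r⁻¹) ≤ (B + 3) ^ (Module.finrank ℚ K + S.card) := by
  have hB3 : (1 : ℝ) ≤ B + 3 := by linarith
  have hrinv : r⁻¹ ≠ 0 := inv_ne_zero hr
  have hsym : r⁻¹ + 2 + r⁻¹⁻¹ = r + 2 + r⁻¹ := by rw [inv_inv]; ring
  -- bounds for `r` and `r⁻¹` at every place other than `u`
  have hv1 : ∀ v : FinitePlace K, v ≠ u → v ∉ S → v r = 1 := by
    intro v hvu hvS
    have h1 : v r ≤ 1 := finitePlace_ratio_le v le_rfl (hout v hvu hvS)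
    have h2 : v r⁻¹ ≤ 1 := finitePlace_ratio_le v le_rfl (by rw [hsym]; exact hout v hvu hvS)
    rw [map_inv₀] at h2
    have hpos : 0 < v r := FinitePlace.pos_iff.mpr hr
    have h3 : 1 ≤ v r := by
      rw [inv_le_one₀ hpos] at h2
      exact h2
    exact le_antisymm h1 h3
  have hv1' : ∀ v : FinitePlace K, v ≠ u → v ∉ S → v r⁻¹ = 1 := by
    intro v hvu hvS
    rw [map_inv₀, hv1 v hvu hvS, inv_one]
  have hSr : ∀ v ∈ S, v ≠ u → v r ≤ B + 3 := fun v hv hvu =>
    le_trans (finitePlace_ratio_le v hB (hS v hv hvu)) (by linarith)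
  have hSr' : ∀ v ∈ S, v ≠ u → v r⁻¹ ≤ B + 3 := fun v hv hvu =>
    le_trans (finitePlace_ratio_le v hB (by rw [hsym]; exact hS v hv hvu)) (by linarith)
  have hIr : ∀ w : InfinitePlace K, w r ≤ B + 3 := fun w => infinitePlace_ratio_le w (hinf w)
  have hIr' : ∀ w : InfinitePlace K, w r⁻¹ ≤ B + 3 := fun w =>
    infinitePlace_ratio_le w (by rw [hsym]; exact hinf w)
  -- the product formula for `r` and for `r⁻¹`
  have hur : u r ≤ (B + 3) ^ (Module.finrank ℚ K + S.card) :=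
    finitePlace_le_of_bounds u S hB3 hr hv1
      (fun v hv hvu => by rw [← map_inv₀]; exact hSr' v hv hvu)
      (fun w => by rw [← map_inv₀]; exact hIr' w)
  have hur' : u r⁻¹ ≤ (B + 3) ^ (Module.finrank ℚ K + S.card) :=
    finitePlace_le_of_bounds u S hB3 hrinv hv1'
      (fun v hv hvu => by rw [← map_inv₀, inv_inv]; exact hSr v hv hvu)
      (fun w => by rw [← map_inv₀, inv_inv]; exact hIr w)
  have hbig : (1 : ℝ) ≤ (B + 3) ^ (Module.finrank ℚ K + S.card) := one_le_pow₀ hB3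
  -- `|t|_u ≤ max(|r|_u, |2|_u, |r⁻¹|_u)`
  have h2 : u (2 : K) ≤ 1 := by
    have := FinitePlace.add_le u (1 : K) 1
    have h1 : u (1 : K) = 1 := map_one u
    rw [h1, max_self] at this
    have e : (2 : K) = 1 + 1 := by norm_num
    rw [e]; exact this
  calc u (r + 2 + r⁻¹) ≤ max (u (r + 2)) (u r⁻¹) := FinitePlace.add_le u _ _
    _ ≤ max (max (u r) (u 2)) (u r⁻¹) := max_le_max (FinitePlace.add_le u _ _) le_rfl
    _ ≤ (B + 3) ^ (Module.finrank ℚ K + S.card) :=
        max_le (max_le hur (le_trans h2 hbig)) hur'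

/-- **Regular ⇒ no split class.**  If `|t|_v ≤ 1` at the finite places `v ∉ S ∪ {u}`,
`|t|_v ≤ B` at the places of `S` and at the infinite places, and `|t|_u` exceeds
`(B + 3) ^ ([K : ℚ] + #S)`, then `t ≠ r + 2 + r⁻¹` for every `r ∈ Kˣ`. -/
theorem regular_no_split [DecidableEq (FinitePlace K)] (u : FinitePlace K)
    (S : Finset (FinitePlace K)) {B : ℝ} (hB : 1 ≤ B) {t : K}
    (hout : ∀ v : FinitePlace K, v ≠ u → v ∉ S → v t ≤ 1)
    (hS : ∀ v ∈ S, v ≠ u → v t ≤ B)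
    (hinf : ∀ w : InfinitePlace K, w t ≤ B)
    (hu : (B + 3) ^ (Module.finrank ℚ K + S.card) < u t) :
    ∀ r : K, r ≠ 0 → t ≠ r + 2 + r⁻¹ := by
  intro r hr ht
  subst ht
  exact absurd (regular_core u S hB hr hout hS hinf) (not_le.mpr hu)

omit [NumberField K] in
/-- A root of `X² - τ X + δ`, `δ ≠ 0`, gives `r ∈ Kˣ` with `τ² / δ = r + 2 + r⁻¹`
(`r` = the quotient of the two roots). -/
theorem exists_ratio_of_root {τ δ x : K} (hδ : δ ≠ 0) (hx : x ^ 2 - τ * x + δ = 0) :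
    ∃ r : K, r ≠ 0 ∧ τ ^ 2 / δ = r + 2 + r⁻¹ := by
  have hx0 : x ≠ 0 := by
    rintro rfl
    apply hδ
    simpa using hx
  have hy : x * (τ - x) = δ := by linear_combination -hx
  have hy0 : τ - x ≠ 0 := by
    intro h
    apply hδ
    rw [← hy, h, mul_zero]
  refine ⟨(τ - x) / x, div_ne_zero hy0 hx0, ?_⟩
  rw [← hy]
  field_simp
  ring

/-- **Regular ⇒ elliptic** (trace/determinant form): if `t = τ² / δ` is integral at the finite
places `v ∉ S ∪ {u}`, bounded by `B` at the places of `S` and at the infinite places, and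
`|t|_u > (B + 3) ^ ([K : ℚ] + #S)`, then `X² - τ X + δ` has no root in `K`. -/
theorem regular_no_root [DecidableEq (FinitePlace K)] (u : FinitePlace K)
    (S : Finset (FinitePlace K)) {B : ℝ} (hB : 1 ≤ B) {τ δ : K} (hδ : δ ≠ 0)
    (hout : ∀ v : FinitePlace K, v ≠ u → v ∉ S → v (τ ^ 2 / δ) ≤ 1)
    (hS : ∀ v ∈ S, v ≠ u → v (τ ^ 2 / δ) ≤ B)
    (hinf : ∀ w : InfinitePlace K, w (τ ^ 2 / δ) ≤ B)
    (hu : (B + 3) ^ (Module.finrank ℚ K + S.card) < u (τ ^ 2 / δ)) :
    ∀ x : K, x ^ 2 - τ * x + δ ≠ 0 := by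
  intro x hx
  obtain ⟨r, hr, ht⟩ := exists_ratio_of_root hδ hx
  exact regular_no_split u S hB hout hS hinf hu r hr ht

/-- **Regular ⇒ elliptic** (matrix form): for `γ ∈ M₂(K)` with `det γ ≠ 0`, under the same
conditions on `t = (tr γ)² / det γ`, no `x ∈ K` is an eigenvalue of `γ`: the characteristic
polynomial of `γ` is irreducible over `K`. -/
theorem regular_matrix_no_eigenvalue [DecidableEq (FinitePlace K)] (u : FinitePlace K)
    (S : Finset (FinitePlace K)) {B : ℝ} (hB : 1 ≤ B) (γ : Matrix (Fin 2) (Fin 2) K)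
    (hδ : γ.det ≠ 0)
    (hout : ∀ v : FinitePlace K, v ≠ u → v ∉ S → v (γ.trace ^ 2 / γ.det) ≤ 1)
    (hS : ∀ v ∈ S, v ≠ u → v (γ.trace ^ 2 / γ.det) ≤ B)
    (hinf : ∀ w : InfinitePlace K, w (γ.trace ^ 2 / γ.det) ≤ B)
    (hu : (B + 3) ^ (Module.finrank ℚ K + S.card) < u (γ.trace ^ 2 / γ.det)) :
    ∀ x : K, (γ - Matrix.scalar (Fin 2) x).det ≠ 0 := by
  intro x hx
  apply regular_no_root u S hB hδ hout hS hinf hu x
  have h1 : (γ - Matrix.scalar (Fin 2) x).det = x ^ 2 - γ.trace * x + γ.det := by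
    rw [Matrix.det_fin_two, Matrix.det_fin_two, Matrix.trace_fin_two]
    simp [Matrix.scalar_apply]
    ring
  rw [← h1]
  exact hx

end Fermat.Agent.LT.H942
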