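import Mathlib

/-!
# Row LT, towers T4/T5/T6 — a regular Iwahori element has unit trace (helper942)

OFF-MAIN.  Mathlib only.  `F` a field with a valuation `v`.  `IsIwahoriMat v k` : the matrix
`k ∈ M₂(F)` has integral entries, lower left entry of valuation `< 1` and a determinant of
valuation `1` (so `k` lies in the Iwahori subgroup of `GL₂(𝒪)`).  For `k₁, k₂` Iwahori and
`v c < 1`:

* `iwahori_regular_trace` : `v (tr (k₁ · diag(c, 1) · k₂)) = 1`;
* `iwahori_regular_det`   : `v (det (k₁ · diag(c, 1) · k₂)) = v c`;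
* `iwahori_regular_ratio` : hence `v (tr² / det) = (v c)⁻¹` (`c ≠ 0`), and the same for every
  conjugate `h · g · h⁻¹` (`iwahori_regular_ratio_conj`).

With `c = ϖ ^ m` this is the local input at the auxiliary place `u` of "regular ⇒ elliptic"
(`RegularCore.lean`): `|tr² / det|_u = q_u ^ m`.
-/

set_option autoImplicit false

namespace Fermat.Agent.LT.H942

open Matrix

variable {F : Type*} [Field F] {Γ₀ : Type*} [LinearOrderedCommGroupWithZero Γ₀]

/-- `k` lies in the Iwahori subgroup (upper triangular modulo the maximal ideal) of `GL₂(𝒪_v)`. -/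
structure IsIwahoriMat (v : Valuation F Γ₀) (k : Matrix (Fin 2) (Fin 2) F) : Prop where
  int : ∀ i j, v (k i j) ≤ 1
  low : v (k 1 0) < 1
  det : v k.det = 1

theorem IsIwahoriMat.diag_mul {v : Valuation F Γ₀} {k : Matrix (Fin 2) (Fin 2) F}
    (hk : IsIwahoriMat v k) : v (k 0 0) * v (k 1 1) = 1 := by
  have hdet := hk.det
  rw [Matrix.det_fin_two] at hdet
  have hsmall : v (k 0 1 * k 1 0) < 1 := by
    rw [map_mul]
    calc v (k 0 1) * v (k 1 0) ≤ 1 * v (k 1 0) := mul_le_mul_left (hk.int 0 1) _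
      _ = v (k 1 0) := one_mul _
      _ < 1 := hk.low
  -- `k00 k11 = det + k01 k10`
  have e : k 0 0 * k 1 1 = (k 0 0 * k 1 1 - k 0 1 * k 1 0) + k 0 1 * k 1 0 := by ring
  rw [← map_mul, e]
  rw [Valuation.map_add_eq_of_lt_left v (by rw [hdet]; exact hsmall)]
  exact hdet

theorem IsIwahoriMat.v00 {v : Valuation F Γ₀} {k : Matrix (Fin 2) (Fin 2) F}
    (hk : IsIwahoriMat v k) : v (k 0 0) = 1 := by
  have h := hk.diag_mul
  refine le_antisymm (hk.int 0 0) ?_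
  by_contra hlt
  rw [not_le] at hlt
  have : v (k 0 0) * v (k 1 1) < 1 := by
    calc v (k 0 0) * v (k 1 1) ≤ v (k 0 0) * 1 := mul_le_mul_right (hk.int 1 1) _
      _ = v (k 0 0) := mul_one _
      _ < 1 := hlt
  rw [h] at this
  exact lt_irrefl _ this

theorem IsIwahoriMat.v11 {v : Valuation F Γ₀} {k : Matrix (Fin 2) (Fin 2) F}
    (hk : IsIwahoriMat v k) : v (k 1 1) = 1 := by
  have h := hk.diag_mul
  rw [hk.v00, one_mul] at h
  exact h

/-- The trace of `k₁ · diag(c, 1) · k₂`. -/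
theorem trace_mul_diag_mul (k₁ k₂ : Matrix (Fin 2) (Fin 2) F) (c : F) :
    (k₁ * Matrix.diagonal ![c, 1] * k₂).trace =
      k₁ 1 1 * k₂ 1 1 + (c * (k₁ 0 0 * k₂ 0 0 + k₁ 1 0 * k₂ 0 1) + k₁ 0 1 * k₂ 1 0) := by
  simp [Matrix.trace_fin_two, Matrix.mul_apply, Fin.sum_univ_two, Matrix.diagonal_apply]
  ring

/-- **Unit trace.** -/
theorem iwahori_regular_trace {v : Valuation F Γ₀} {k₁ k₂ : Matrix (Fin 2) (Fin 2) F}
    (h₁ : IsIwahoriMat v k₁) (h₂ : IsIwahoriMat v k₂) {c : F} (hc : v c < 1) :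
    v (k₁ * Matrix.diagonal ![c, 1] * k₂).trace = 1 := by
  rw [trace_mul_diag_mul]
  have hmain : v (k₁ 1 1 * k₂ 1 1) = 1 := by rw [map_mul, h₁.v11, h₂.v11, one_mul]
  have hle1 : ∀ a b : F, v a ≤ 1 → v b ≤ 1 → v (a * b) ≤ 1 := fun a b ha hb => by
    rw [map_mul]
    calc v a * v b ≤ 1 * 1 := mul_le_mul' ha hb
      _ = 1 := one_mul _
  have hA : v (k₁ 0 0 * k₂ 0 0 + k₁ 1 0 * k₂ 0 1) ≤ 1 :=
    le_trans (v.map_add _ _) (max_le (hle1 _ _ (h₁.int 0 0) (h₂.int 0 0))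
      (hle1 _ _ (h₁.int 1 0) (h₂.int 0 1)))
  have hcA : v (c * (k₁ 0 0 * k₂ 0 0 + k₁ 1 0 * k₂ 0 1)) < 1 := by
    rw [map_mul]
    calc v c * v (k₁ 0 0 * k₂ 0 0 + k₁ 1 0 * k₂ 0 1) ≤ v c * 1 := mul_le_mul_right hA _
      _ = v c := mul_one _
      _ < 1 := hc
  have hB : v (k₁ 0 1 * k₂ 1 0) < 1 := by
    rw [map_mul]
    calc v (k₁ 0 1) * v (k₂ 1 0) ≤ 1 * v (k₂ 1 0) := mul_le_mul_left (h₁.int 0 1) _
      _ = v (k₂ 1 0) := one_mul _
      _ < 1 := h₂.low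
  have hrest : v (c * (k₁ 0 0 * k₂ 0 0 + k₁ 1 0 * k₂ 0 1) + k₁ 0 1 * k₂ 1 0) < 1 :=
    lt_of_le_of_lt (v.map_add _ _) (max_lt hcA hB)
  rw [Valuation.map_add_eq_of_lt_left v (by rw [hmain]; exact hrest)]
  exact hmain

/-- **Determinant.** -/
theorem iwahori_regular_det {v : Valuation F Γ₀} {k₁ k₂ : Matrix (Fin 2) (Fin 2) F}
    (h₁ : IsIwahoriMat v k₁) (h₂ : IsIwahoriMat v k₂) (c : F) :
    v (k₁ * Matrix.diagonal ![c, 1] * k₂).det = v c := by
  rw [Matrix.det_mul, Matrix.det_mul, Matrix.det_diagonal, map_mul, map_mul, h₁.det, h₂.det]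
  simp [Fin.prod_univ_two]

/-- **The invariant `tr² / det` of a regular Iwahori element.** -/
theorem iwahori_regular_ratio {v : Valuation F Γ₀} {k₁ k₂ : Matrix (Fin 2) (Fin 2) F}
    (h₁ : IsIwahoriMat v k₁) (h₂ : IsIwahoriMat v k₂) {c : F} (hc : v c < 1) :
    v ((k₁ * Matrix.diagonal ![c, 1] * k₂).trace ^ 2 / (k₁ * Matrix.diagonal ![c, 1] * k₂).det)
      = (v c)⁻¹ := by
  rw [map_div₀, map_pow, iwahori_regular_trace h₁ h₂ hc, iwahori_regular_det h₁ h₂ c]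
  simp

/-- … and of every conjugate (trace and determinant are conjugation invariant). -/
theorem iwahori_regular_ratio_conj {v : Valuation F Γ₀} {k₁ k₂ : Matrix (Fin 2) (Fin 2) F}
    (h₁ : IsIwahoriMat v k₁) (h₂ : IsIwahoriMat v k₂) {c : F} (hc : v c < 1)
    (h h' : Matrix (Fin 2) (Fin 2) F) (hh : h' * h = 1) :
    v ((h * (k₁ * Matrix.diagonal ![c, 1] * k₂) * h').trace ^ 2 /
        (h * (k₁ * Matrix.diagonal ![c, 1] * k₂) * h').det) = (v c)⁻¹ := by
  have htr : (h * (k₁ * Matrix.diagonal ![c, 1] * k₂) * h').trace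
      = (k₁ * Matrix.diagonal ![c, 1] * k₂).trace := by
    rw [Matrix.trace_mul_comm, ← Matrix.mul_assoc, hh, Matrix.one_mul]
  have hdet : (h * (k₁ * Matrix.diagonal ![c, 1] * k₂) * h').det
      = (k₁ * Matrix.diagonal ![c, 1] * k₂).det := by
    have h1 : h'.det * h.det = 1 := by rw [← Matrix.det_mul, hh, Matrix.det_one]
    rw [Matrix.det_mul, Matrix.det_mul]
    linear_combination (k₁ * Matrix.diagonal ![c, 1] * k₂).det * h1
  rw [htr, hdet]
  exact iwahori_regular_ratio h₁ h₂ hc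

end Fermat.Agent.LT.H942
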