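import Mathlib
import Fermat.Agent.LT.H556.A0
import Fermat.Agent.LT.H942.AdelicComp
import Fermat.Agent.LT.H942.RegularCore
import Fermat.Agent.LT.H942.RegularLocal

/-!
# Row LT, towers T4/T5 — regular ⇒ elliptic, ADELIC form (helper942)

OFF-MAIN.  Imports Mathlib, the frozen vocabulary `LT/H556/A0.lean` and my own
`AdelicComp`, `RegularCore`, `RegularLocal`.

`γ ∈ GL₂(K)`, `g ∈ GL₂(𝔸_K)`, `h = g⁻¹ γ g` (the argument of a test function in the kernel
`∑_γ f(g⁻¹ γ g)`).  If the local components of `h` satisfy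

* `‖tr h_v‖² ≤ ‖det h_v‖` at the finite places `v ∉ S ∪ {u}` (e.g. `h_v ∈ GL₂(𝒪_v)`:
  `regular_adelic_of_integral942`),
* `‖tr h_v‖² ≤ B ‖det h_v‖` at the places of the finite set `S` and at the infinite places
  (`h` in a compact set),
* `‖tr h_u‖² > (B + 3) ^ ([K:ℚ] + #S) ‖det h_u‖` at the auxiliary place `u` (a sufficiently
  regular Iwahori double coset `I diag(c, 1) I`, `‖c‖_u` small: `regular_adelic_of_iwahori942`),

then `γ` has no eigenvalue in `K` (`regular_adelic_no_eigenvalue942`): `γ` is elliptic, `K[γ]` is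
a quadratic field extension of `K`.  This is the statement "`f(g⁻¹ γ g) ≠ 0 ⇒ γ` elliptic regular"
for Flicker's regular test functions (Flicker, *Regular trace formula and base change lifting*,
§1), in the vocabulary of A0.
-/

set_option autoImplicit false

open IsDedekindDomain NumberField

noncomputable section

namespace Fermat.Agent.LT.H942

open Fermat.Agent.LT.H556.A0

variable {K : Type} [Field K] [NumberField K]

/-- The invariant `t = tr² / det` of `γ`, seen at the finite place `v`, in terms of the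
`v`-component of any conjugate `g⁻¹ γ g`. -/
theorem finitePlace_ratio_eq942 (v : HeightOneSpectrum (𝓞 K)) (γ : GL (Fin 2) K) (g : G K) :
    FinitePlace.mk v ((γ : Matrix (Fin 2) (Fin 2) K).trace ^ 2 /
        (γ : Matrix (Fin 2) (Fin 2) K).det) =
      ‖(finComp v (g⁻¹ * rat942 γ * g)).trace‖ ^ 2 / ‖(finComp v (g⁻¹ * rat942 γ * g)).det‖ := by
  rw [trace_finComp_conj942, det_finComp_conj942, norm_algebraMap_fin942, norm_algebraMap_fin942,
    map_div₀, map_pow]

/-- The invariant `t = tr² / det` of `γ`, seen at the infinite place `w`. -/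
theorem infinitePlace_ratio_eq942 (w : InfinitePlace K) (γ : GL (Fin 2) K) (g : G K) :
    w ((γ : Matrix (Fin 2) (Fin 2) K).trace ^ 2 / (γ : Matrix (Fin 2) (Fin 2) K).det) =
      ‖(infComp w (g⁻¹ * rat942 γ * g)).trace‖ ^ 2 / ‖(infComp w (g⁻¹ * rat942 γ * g)).det‖ := by
  rw [trace_infComp_conj942, det_infComp_conj942, norm_embedding_inf942, norm_embedding_inf942,
    map_div₀, map_pow]

theorem norm_det_finComp_pos942 (v : HeightOneSpectrum (𝓞 K)) (g : G K) :
    0 < ‖(finComp v g).det‖ :=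
  norm_pos_iff.2 (det_finComp_ne_zero942 v g)

theorem norm_det_infComp_pos942 (w : InfinitePlace K) (g : G K) :
    0 < ‖(infComp w g).det‖ :=
  norm_pos_iff.2 (det_infComp_ne_zero942 w g)

/-- **Regular ⇒ elliptic, adelic form.** -/
theorem regular_adelic_no_eigenvalue942 (u : HeightOneSpectrum (𝓞 K))
    (S : Finset (HeightOneSpectrum (𝓞 K))) {B : ℝ} (hB : 1 ≤ B) (γ : GL (Fin 2) K) (g : G K)
    (hout : ∀ v : HeightOneSpectrum (𝓞 K), v ≠ u → v ∉ S →
      ‖(finComp v (g⁻¹ * rat942 γ * g)).trace‖ ^ 2 ≤ ‖(finComp v (g⁻¹ * rat942 γ * g)).det‖)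
    (hS : ∀ v ∈ S, v ≠ u →
      ‖(finComp v (g⁻¹ * rat942 γ * g)).trace‖ ^ 2
        ≤ B * ‖(finComp v (g⁻¹ * rat942 γ * g)).det‖)
    (hinf : ∀ w : InfinitePlace K,
      ‖(infComp w (g⁻¹ * rat942 γ * g)).trace‖ ^ 2
        ≤ B * ‖(infComp w (g⁻¹ * rat942 γ * g)).det‖)
    (hu : (B + 3) ^ (Module.finrank ℚ K + S.card) * ‖(finComp u (g⁻¹ * rat942 γ * g)).det‖
      < ‖(finComp u (g⁻¹ * rat942 γ * g)).trace‖ ^ 2) :
    ∀ x : K, ((γ : Matrix (Fin 2) (Fin 2) K) - Matrix.scalar (Fin 2) x).det ≠ 0 := by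
  classical
  have hδ : (γ : Matrix (Fin 2) (Fin 2) K).det ≠ 0 := by
    have := (Matrix.isUnits_det_units γ).ne_zero
    exact this
  have hcard : (S.image FinitePlace.mk).card = S.card :=
    Finset.card_image_of_injective S fun a b hab => FinitePlace.mk_eq_iff.1 hab
  have key := regular_matrix_no_eigenvalue (K := K) (FinitePlace.mk u) (S.image FinitePlace.mk) hB
    (γ : Matrix (Fin 2) (Fin 2) K) hδ ?_ ?_ ?_ ?_
  · exact key
  · intro v' hv'u hv'S
    obtain ⟨v, rfl⟩ : ∃ v, FinitePlace.mk v = v' := ⟨v'.maximalIdeal, FinitePlace.mk_maximalIdeal v'⟩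
    have hvu : v ≠ u := fun h => hv'u (by rw [h])
    have hvS : v ∉ S := fun h => hv'S (Finset.mem_image_of_mem _ h)
    rw [finitePlace_ratio_eq942 v γ g, div_le_one (norm_det_finComp_pos942 v _)]
    exact hout v hvu hvS
  · intro v' hv'S hv'u
    obtain ⟨v, hvS, rfl⟩ := Finset.mem_image.1 hv'S
    have hvu : v ≠ u := fun h => hv'u (by rw [h])
    rw [finitePlace_ratio_eq942 v γ g, div_le_iff₀ (norm_det_finComp_pos942 v _)]
    exact hS v hvS hvu
  · intro w
    rw [infinitePlace_ratio_eq942 w γ g, div_le_iff₀ (norm_det_infComp_pos942 w _)]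
    exact hinf w
  · rw [hcard, finitePlace_ratio_eq942 u γ g, lt_div_iff₀ (norm_det_finComp_pos942 u _)]
    exact hu

/-- The unramified condition: `h_v ∈ GL₂(𝒪_v)` gives `‖tr h_v‖² ≤ ‖det h_v‖`. -/
theorem regular_adelic_of_integral942 (v : HeightOneSpectrum (𝓞 K)) (h : G K)
    (h1 : IsIntegralAt v h) (h2 : IsIntegralAt v h⁻¹) :
    ‖(finComp v h).trace‖ ^ 2 ≤ ‖(finComp v h).det‖ := by
  rw [norm_det_eq_one_of_integral942 v h h1 h2]
  exact pow_le_one₀ (norm_nonneg _) (norm_trace_le_one_of_integral942 v h h1)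

/-- The regular condition at `u`: if `h_u = k₁ diag(c, 1) k₂` with `k₁, k₂` in the Iwahori
subgroup and `‖c‖ < 1`, then `‖tr h_u‖² = 1` and `‖det h_u‖ = ‖c‖`. -/
theorem regular_adelic_of_iwahori942 (u : HeightOneSpectrum (𝓞 K)) (h : G K)
    {k₁ k₂ : Matrix (Fin 2) (Fin 2) (u.adicCompletion K)}
    (hk₁ : IsIwahoriMat (Valued.v : Valuation (u.adicCompletion K) _) k₁)
    (hk₂ : IsIwahoriMat (Valued.v : Valuation (u.adicCompletion K) _) k₂)
    {c : u.adicCompletion K} (hc : ‖c‖ < 1)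
    (hh : finComp u h = k₁ * Matrix.diagonal ![c, 1] * k₂) :
    ‖(finComp u h).trace‖ = 1 ∧ ‖(finComp u h).det‖ = ‖c‖ := by
  have hc' : Valued.v c < 1 := Valued.toNormedField.norm_lt_one_iff.1 hc
  refine ⟨?_, ?_⟩
  · rw [hh, norm_eq_one_iff_valued942]
    exact iwahori_regular_trace hk₁ hk₂ hc'
  · rw [hh, Matrix.det_mul, Matrix.det_mul, Matrix.det_diagonal, norm_mul, norm_mul,
      (norm_eq_one_iff_valued942 u _).2 hk₁.det, (norm_eq_one_iff_valued942 u _).2 hk₂.det]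
    simp [Fin.prod_univ_two]

/-- **Regular ⇒ elliptic for Flicker's regular elements**: `h = g⁻¹ γ g` is in `GL₂(𝒪_v)` outside
`S ∪ {u}`, bounded at `S` and at the infinite places, and in the regular Iwahori double coset
`I diag(c, 1) I` at `u` with `‖c‖_u⁻¹ > (B + 3) ^ ([K:ℚ] + #S)`.  Then `γ` has no eigenvalue
in `K`. -/
theorem regular_iwahori_elliptic942 (u : HeightOneSpectrum (𝓞 K))
    (S : Finset (HeightOneSpectrum (𝓞 K))) {B : ℝ} (hB : 1 ≤ B) (γ : GL (Fin 2) K) (g : G K)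
    (hout : ∀ v : HeightOneSpectrum (𝓞 K), v ≠ u → v ∉ S →
      IsIntegralAt v (g⁻¹ * rat942 γ * g) ∧ IsIntegralAt v (g⁻¹ * rat942 γ * g)⁻¹)
    (hS : ∀ v ∈ S, v ≠ u →
      ‖(finComp v (g⁻¹ * rat942 γ * g)).trace‖ ^ 2
        ≤ B * ‖(finComp v (g⁻¹ * rat942 γ * g)).det‖)
    (hinf : ∀ w : InfinitePlace K,
      ‖(infComp w (g⁻¹ * rat942 γ * g)).trace‖ ^ 2
        ≤ B * ‖(infComp w (g⁻¹ * rat942 γ * g)).det‖)
    {k₁ k₂ : Matrix (Fin 2) (Fin 2) (u.adicCompletion K)}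
    (hk₁ : IsIwahoriMat (Valued.v : Valuation (u.adicCompletion K) _) k₁)
    (hk₂ : IsIwahoriMat (Valued.v : Valuation (u.adicCompletion K) _) k₂)
    {c : u.adicCompletion K}
    (hc : (B + 3) ^ (Module.finrank ℚ K + S.card) * ‖c‖ < 1)
    (hh : finComp u (g⁻¹ * rat942 γ * g) = k₁ * Matrix.diagonal ![c, 1] * k₂) :
    ∀ x : K, ((γ : Matrix (Fin 2) (Fin 2) K) - Matrix.scalar (Fin 2) x).det ≠ 0 := by
  have hB3 : (1 : ℝ) ≤ (B + 3) ^ (Module.finrank ℚ K + S.card) :=
    one_le_pow₀ (by linarith)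
  have hc1 : ‖c‖ < 1 := by
    refine lt_of_le_of_lt ?_ hc
    calc ‖c‖ = 1 * ‖c‖ := (one_mul _).symm
      _ ≤ (B + 3) ^ (Module.finrank ℚ K + S.card) * ‖c‖ :=
        mul_le_mul_of_nonneg_right hB3 (norm_nonneg _)
  obtain ⟨htr, hdet⟩ := regular_adelic_of_iwahori942 u _ hk₁ hk₂ hc1 hh
  refine regular_adelic_no_eigenvalue942 u S hB γ g ?_ hS hinf ?_
  · intro v hvu hvS
    exact regular_adelic_of_integral942 v _ (hout v hvu hvS).1 (hout v hvu hvS).2
  · rw [htr, hdet]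
    simpa using hc

end Fermat.Agent.LT.H942

end
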