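import Mathlib
import Fermat.Agent.LT.H556.A0
import Fermat.Agent.LT.H942.AdelicComp
import Fermat.Agent.LT.H942.RegularAdelic

/-!
# Row LT, towers T4/T5 — compact subsets of `GL₂(𝔸_K)` and regular test functions (helper942)

OFF-MAIN.  Imports Mathlib, the frozen vocabulary `LT/H556/A0.lean` and my own files.

* `continuous_finComp942`, `continuous_infComp942`: the local components are continuous on
  `GL₂(𝔸_K)`;
* `isOpen_integralOutside942`: `{h | h_v ∈ GL₂(𝒪_v) for all v ∉ S}` is open;
* `exists_finset_integral_of_compact942`: a compact subset of `GL₂(𝔸_K)` lies in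
  `∏_{v ∈ S} GL₂(K_v) × ∏_{v ∉ S} GL₂(𝒪_v) × GL₂(K_∞)` for a finite set `S`;
* `exists_bound_of_compact942`: … and `‖tr h_v‖² ≤ B ‖det h_v‖` at all places, uniformly;
* `regular_support_elliptic942`: **regular ⇒ elliptic for a compact support**.  For `C` compact
  and a finite place `u` there is `ε > 0` such that: if `h = g⁻¹ γ g` (`γ ∈ GL₂(K)`) agrees
  outside `u` with an element of `C` and `h_u ∈ I diag(c, 1) I` with `‖c‖_u < ε`, then `γ` has no
  eigenvalue in `K`.  (Flicker, *Regular trace formula and base change lifting*, §1.)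
-/

set_option autoImplicit false

open IsDedekindDomain NumberField
open scoped RestrictedProduct

noncomputable section

namespace Fermat.Agent.LT.H942

open Fermat.Agent.LT.H556.A0

variable {K : Type} [Field K] [NumberField K]

/-! ## Continuity of the local components -/

theorem continuous_finProj942 (v : HeightOneSpectrum (𝓞 K)) :
    Continuous (finProj942 v : Adl K → v.adicCompletion K) :=
  (RestrictedProduct.continuous_eval v).comp continuous_snd

theorem continuous_infProj942 (w : InfinitePlace K) :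
    Continuous (infProj942 w : Adl K → ℂ) :=
  (InfinitePlace.Completion.isometry_extensionEmbedding w).continuous.comp
    ((continuous_apply w).comp continuous_fst)

theorem continuous_entry942 (i j : Fin 2) :
    Continuous fun g : G K => (g : Matrix (Fin 2) (Fin 2) (Adl K)) i j :=
  Continuous.matrix_elem Units.continuous_val i j

theorem continuous_entry_inv942 (i j : Fin 2) :
    Continuous fun g : G K => ((g⁻¹ : G K) : Matrix (Fin 2) (Fin 2) (Adl K)) i j :=
  (continuous_entry942 i j).comp continuous_inv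

theorem continuous_finComp942 (v : HeightOneSpectrum (𝓞 K)) (i j : Fin 2) :
    Continuous fun g : G K => finComp v g i j :=
  (continuous_finProj942 v).comp (continuous_entry942 i j)

theorem continuous_infComp942 (w : InfinitePlace K) (i j : Fin 2) :
    Continuous fun g : G K => infComp w g i j :=
  (continuous_infProj942 w).comp (continuous_entry942 i j)

theorem continuous_trace_finComp942 (v : HeightOneSpectrum (𝓞 K)) :
    Continuous fun g : G K => (finComp v g).trace := by
  simp only [Matrix.trace_fin_two]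
  exact (continuous_finComp942 v 0 0).add (continuous_finComp942 v 1 1)

theorem continuous_det_finComp942 (v : HeightOneSpectrum (𝓞 K)) :
    Continuous fun g : G K => (finComp v g).det := by
  simp only [Matrix.det_fin_two]
  exact ((continuous_finComp942 v 0 0).mul (continuous_finComp942 v 1 1)).sub
    ((continuous_finComp942 v 0 1).mul (continuous_finComp942 v 1 0))

theorem continuous_trace_infComp942 (w : InfinitePlace K) :
    Continuous fun g : G K => (infComp w g).trace := by
  simp only [Matrix.trace_fin_two]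
  exact (continuous_infComp942 w 0 0).add (continuous_infComp942 w 1 1)

theorem continuous_det_infComp942 (w : InfinitePlace K) :
    Continuous fun g : G K => (infComp w g).det := by
  simp only [Matrix.det_fin_two]
  exact ((continuous_infComp942 w 0 0).mul (continuous_infComp942 w 1 1)).sub
    ((continuous_infComp942 w 0 1).mul (continuous_infComp942 w 1 0))

/-- The local invariant `‖tr h_v‖² / ‖det h_v‖` is continuous. -/
theorem continuous_ratio_fin942 (v : HeightOneSpectrum (𝓞 K)) :
    Continuous fun g : G K => ‖(finComp v g).trace‖ ^ 2 / ‖(finComp v g).det‖ :=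
  ((continuous_trace_finComp942 v).norm.pow 2).div (continuous_det_finComp942 v).norm
    fun g => (norm_det_finComp_pos942 v g).ne'

theorem continuous_ratio_inf942 (w : InfinitePlace K) :
    Continuous fun g : G K => ‖(infComp w g).trace‖ ^ 2 / ‖(infComp w g).det‖ :=
  ((continuous_trace_infComp942 w).norm.pow 2).div (continuous_det_infComp942 w).norm
    fun g => (norm_det_infComp_pos942 w g).ne'

/-! ## Integrality outside a finite set is an open condition -/

/-- The finite adeles which are integral outside `S` form an open set. -/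
theorem isOpen_adele_integralOutside942 (S : Finset (HeightOneSpectrum (𝓞 K))) :
    IsOpen {a : Adl K | ∀ v : HeightOneSpectrum (𝓞 K), v ∉ S →
      a.2 v ∈ v.adicCompletionIntegers K} := by
  have h1 : IsOpen {f : Πʳ v : HeightOneSpectrum (𝓞 K),
      [v.adicCompletion K, v.adicCompletionIntegers K] | ∀ v : HeightOneSpectrum (𝓞 K), v ∉ S →
      f.1 v ∈ (v.adicCompletionIntegers K : Set (v.adicCompletion K))} :=
    RestrictedProduct.isOpen_forall_imp_mem
      (fun v => Valued.isOpen_valuationSubring _) (p := fun v => v ∉ S)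
  exact h1.preimage (continuous_snd : Continuous fun a : Adl K => a.2)

theorem isOpen_integralOutside942 (S : Finset (HeightOneSpectrum (𝓞 K))) :
    IsOpen {h : G K | ∀ v : HeightOneSpectrum (𝓞 K), v ∉ S →
      IsIntegralAt v h ∧ IsIntegralAt v h⁻¹} := by
  have hset : {h : G K | ∀ v : HeightOneSpectrum (𝓞 K), v ∉ S →
      IsIntegralAt v h ∧ IsIntegralAt v h⁻¹} =
      ⋂ i : Fin 2, ⋂ j : Fin 2,
        ((fun g : G K => (g : Matrix (Fin 2) (Fin 2) (Adl K)) i j) ⁻¹'
          {a : Adl K | ∀ v : HeightOneSpectrum (𝓞 K), v ∉ S →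
            a.2 v ∈ v.adicCompletionIntegers K}) ∩
        ((fun g : G K => ((g⁻¹ : G K) : Matrix (Fin 2) (Fin 2) (Adl K)) i j) ⁻¹'
          {a : Adl K | ∀ v : HeightOneSpectrum (𝓞 K), v ∉ S →
            a.2 v ∈ v.adicCompletionIntegers K}) := by
    ext h
    simp only [Set.mem_setOf_eq, Set.mem_iInter, Set.mem_inter_iff, Set.mem_preimage]
    constructor
    · intro H i j
      exact ⟨fun v hv => (H v hv).1 i j, fun v hv => (H v hv).2 i j⟩
    · intro H v hv
      exact ⟨fun i j => (H i j).1 v hv, fun i j => (H i j).2 v hv⟩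
  rw [hset]
  refine isOpen_iInter_of_finite fun i => isOpen_iInter_of_finite fun j => ?_
  exact ((isOpen_adele_integralOutside942 S).preimage (continuous_entry942 i j)).inter
    ((isOpen_adele_integralOutside942 S).preimage (continuous_entry_inv942 i j))

/-- Every adele is integral outside a finite set. -/
theorem exists_finset_adele_integral942 (a : Adl K) :
    ∃ S : Finset (HeightOneSpectrum (𝓞 K)), ∀ v : HeightOneSpectrum (𝓞 K), v ∉ S →
      a.2 v ∈ v.adicCompletionIntegers K := by
  have h := a.2.2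
  rw [Filter.eventually_cofinite] at h
  refine ⟨h.toFinset, fun v hv => ?_⟩
  by_contra hv'
  exact hv (h.mem_toFinset.2 hv')

/-- Every element of `GL₂(𝔸_K)` is in `GL₂(𝒪_v)` outside a finite set. -/
theorem exists_finset_integral942 (h : G K) :
    ∃ S : Finset (HeightOneSpectrum (𝓞 K)), ∀ v : HeightOneSpectrum (𝓞 K), v ∉ S →
      IsIntegralAt v h ∧ IsIntegralAt v h⁻¹ := by
  classical
  choose S hS using fun (p : Fin 2 × Fin 2) =>
    exists_finset_adele_integral942 ((h : Matrix (Fin 2) (Fin 2) (Adl K)) p.1 p.2)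
  choose S' hS' using fun (p : Fin 2 × Fin 2) =>
    exists_finset_adele_integral942 (((h⁻¹ : G K) : Matrix (Fin 2) (Fin 2) (Adl K)) p.1 p.2)
  refine ⟨Finset.univ.biUnion S ∪ Finset.univ.biUnion S', fun v hv => ⟨fun i j => ?_, fun i j => ?_⟩⟩
  · refine hS (i, j) v fun hmem => hv ?_
    exact Finset.mem_union_left _ (Finset.mem_biUnion.2 ⟨(i, j), Finset.mem_univ _, hmem⟩)
  · refine hS' (i, j) v fun hmem => hv ?_
    exact Finset.mem_union_right _ (Finset.mem_biUnion.2 ⟨(i, j), Finset.mem_univ _, hmem⟩)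

/-- A compact subset of `GL₂(𝔸_K)` is contained in `GL₂(𝒪_v)` at all places outside a finite
set. -/
theorem exists_finset_integral_of_compact942 {C : Set (G K)} (hC : IsCompact C) :
    ∃ S : Finset (HeightOneSpectrum (𝓞 K)), ∀ h ∈ C, ∀ v : HeightOneSpectrum (𝓞 K), v ∉ S →
      IsIntegralAt v h ∧ IsIntegralAt v h⁻¹ := by
  classical
  obtain ⟨S, hS⟩ := hC.elim_directed_cover
    (fun S : Finset (HeightOneSpectrum (𝓞 K)) =>
      {h : G K | ∀ v : HeightOneSpectrum (𝓞 K), v ∉ S → IsIntegralAt v h ∧ IsIntegralAt v h⁻¹})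
    (fun S => isOpen_integralOutside942 S)
    (fun h _ => by
      obtain ⟨S, hS⟩ := exists_finset_integral942 h
      exact Set.mem_iUnion.2 ⟨S, hS⟩)
    (fun S T => ⟨S ∪ T,
      fun h hh v hv => hh v fun hvS => hv (Finset.mem_union_left _ hvS),
      fun h hh v hv => hh v fun hvT => hv (Finset.mem_union_right _ hvT)⟩)
  exact ⟨S, fun h hh => hS hh⟩

/-- **Uniform local bounds on a compact set.** -/
theorem exists_bound_of_compact942 {C : Set (G K)} (hC : IsCompact C) :
    ∃ (S : Finset (HeightOneSpectrum (𝓞 K))) (B : ℝ), 1 ≤ B ∧ ∀ h ∈ C,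
      (∀ v : HeightOneSpectrum (𝓞 K), v ∉ S → IsIntegralAt v h ∧ IsIntegralAt v h⁻¹) ∧
      (∀ v : HeightOneSpectrum (𝓞 K), ‖(finComp v h).trace‖ ^ 2 ≤ B * ‖(finComp v h).det‖) ∧
      ∀ w : InfinitePlace K, ‖(infComp w h).trace‖ ^ 2 ≤ B * ‖(infComp w h).det‖ := by
  classical
  obtain ⟨S, hS⟩ := exists_finset_integral_of_compact942 hC
  -- bounds at the places of `S`
  have hbf : ∀ v : HeightOneSpectrum (𝓞 K), ∃ b : ℝ, ∀ h ∈ C,
      ‖(finComp v h).trace‖ ^ 2 / ‖(finComp v h).det‖ ≤ b := by
    intro v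
    obtain ⟨b, hb⟩ := (hC.image (continuous_ratio_fin942 v)).bddAbove
    exact ⟨b, fun h hh => hb (Set.mem_image_of_mem _ hh)⟩
  have hbi : ∀ w : InfinitePlace K, ∃ b : ℝ, ∀ h ∈ C,
      ‖(infComp w h).trace‖ ^ 2 / ‖(infComp w h).det‖ ≤ b := by
    intro w
    obtain ⟨b, hb⟩ := (hC.image (continuous_ratio_inf942 w)).bddAbove
    exact ⟨b, fun h hh => hb (Set.mem_image_of_mem _ hh)⟩
  choose bf hbf using hbf
  choose bi hbi using hbi
  set B : ℝ := 1 + ∑ v ∈ S, |bf v| + ∑ w : InfinitePlace K, |bi w| with hBdef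
  have hsum1 : 0 ≤ ∑ v ∈ S, |bf v| := Finset.sum_nonneg fun _ _ => abs_nonneg _
  have hsum2 : 0 ≤ ∑ w : InfinitePlace K, |bi w| := Finset.sum_nonneg fun _ _ => abs_nonneg _
  have hB1 : 1 ≤ B := by rw [hBdef]; linarith
  refine ⟨S, B, hB1, fun h hh => ⟨hS h hh, fun v => ?_, fun w => ?_⟩⟩
  · by_cases hv : v ∈ S
    · have h1 := hbf v h hh
      rw [div_le_iff₀ (norm_det_finComp_pos942 v h)] at h1
      refine le_trans h1 (mul_le_mul_of_nonneg_right ?_ (norm_nonneg _))
      have h2 : |bf v| ≤ ∑ v ∈ S, |bf v| :=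
        Finset.single_le_sum (f := fun v => |bf v|) (fun _ _ => abs_nonneg _) hv
      rw [hBdef]
      linarith [le_abs_self (bf v)]
    · have h1 := regular_adelic_of_integral942 v h (hS h hh v hv).1 (hS h hh v hv).2
      refine le_trans h1 ?_
      calc ‖(finComp v h).det‖ = 1 * ‖(finComp v h).det‖ := (one_mul _).symm
        _ ≤ B * ‖(finComp v h).det‖ := mul_le_mul_of_nonneg_right hB1 (norm_nonneg _)
  · have h1 := hbi w h hh
    rw [div_le_iff₀ (norm_det_infComp_pos942 w h)] at h1
    refine le_trans h1 (mul_le_mul_of_nonneg_right ?_ (norm_nonneg _))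
    have h2 : |bi w| ≤ ∑ w : InfinitePlace K, |bi w| :=
      Finset.single_le_sum (f := fun w => |bi w|) (fun _ _ => abs_nonneg _) (Finset.mem_univ w)
    rw [hBdef]
    linarith [le_abs_self (bi w)]

/-- **Regular ⇒ elliptic for a compact support.**  `C ⊂ GL₂(𝔸_K)` compact, `u` a finite place.
There is `ε > 0` such that for `γ ∈ GL₂(K)`, `g ∈ GL₂(𝔸_K)`: if `h = g⁻¹ γ g` has the same
components as some `c ∈ C` at all places other than `u`, and `h_u = k₁ diag(c₀, 1) k₂` with
`k₁, k₂` in the Iwahori subgroup and `‖c₀‖_u < ε`, then `γ` has no eigenvalue in `K`. -/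
theorem regular_support_elliptic942 {C : Set (G K)} (hC : IsCompact C)
    (u : HeightOneSpectrum (𝓞 K)) :
    ∃ ε : ℝ, 0 < ε ∧ ∀ (γ : GL (Fin 2) K) (g : G K),
      (∃ c ∈ C, (∀ v : HeightOneSpectrum (𝓞 K), v ≠ u →
          finComp v (g⁻¹ * rat942 γ * g) = finComp v c) ∧
        ∀ w : InfinitePlace K, infComp w (g⁻¹ * rat942 γ * g) = infComp w c) →
      (∃ (k₁ k₂ : Matrix (Fin 2) (Fin 2) (u.adicCompletion K)) (c₀ : u.adicCompletion K),
        IsIwahoriMat (Valued.v : Valuation (u.adicCompletion K) _) k₁ ∧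
        IsIwahoriMat (Valued.v : Valuation (u.adicCompletion K) _) k₂ ∧ ‖c₀‖ < ε ∧
        finComp u (g⁻¹ * rat942 γ * g) = k₁ * Matrix.diagonal ![c₀, 1] * k₂) →
      ∀ x : K, ((γ : Matrix (Fin 2) (Fin 2) K) - Matrix.scalar (Fin 2) x).det ≠ 0 := by
  obtain ⟨S, B, hB, hSB⟩ := exists_bound_of_compact942 hC
  have hpos : 0 < (B + 3) ^ (Module.finrank ℚ K + S.card) := pow_pos (by linarith) _
  refine ⟨((B + 3) ^ (Module.finrank ℚ K + S.card))⁻¹, inv_pos.2 hpos, ?_⟩
  rintro γ g ⟨c, hc, hfin, hinf⟩ ⟨k₁, k₂, c₀, hk₁, hk₂, hc₀, hh⟩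
  obtain ⟨hint, hbf, hbi⟩ := hSB c hc
  have hB3 : (1 : ℝ) ≤ (B + 3) ^ (Module.finrank ℚ K + S.card) :=
    one_le_pow₀ (by linarith)
  have hc1 : ‖c₀‖ < 1 :=
    lt_of_lt_of_le hc₀ (inv_le_one_of_one_le₀ hB3)
  obtain ⟨htr, hdet⟩ := regular_adelic_of_iwahori942 u _ hk₁ hk₂ hc1 hh
  refine regular_adelic_no_eigenvalue942 u S hB γ g ?_ ?_ ?_ ?_
  · intro v hvu hvS
    rw [hfin v hvu]
    exact regular_adelic_of_integral942 v c (hint v hvS).1 (hint v hvS).2
  · intro v _ hvu
    rw [hfin v hvu]
    exact hbf v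
  · intro w
    rw [hinf w]
    exact hbi w
  · rw [htr, hdet]
    calc (B + 3) ^ (Module.finrank ℚ K + S.card) * ‖c₀‖
        < (B + 3) ^ (Module.finrank ℚ K + S.card) *
            ((B + 3) ^ (Module.finrank ℚ K + S.card))⁻¹ := mul_lt_mul_of_pos_left hc₀ hpos
      _ = 1 := mul_inv_cancel₀ hpos.ne'
      _ = 1 ^ 2 := (one_pow 2).symm

end Fermat.Agent.LT.H942

end
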