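import Mathlib
import Fermat.Agent.LT.H942.RegularCore

/-!
# Row LT, tower T5 — regular ⇒ elliptic along an ORBIT of places (helper942)

OFF-MAIN.  Mathlib + `RegularCore.lean`.  `K` a number field, `O` a finite set of finite places
(the orbit of the auxiliary place `u` under a cyclic group of automorphisms), `S` a finite set of
finite places, `r ∈ Kˣ` (an element of the fixed field, so that its absolute values along the
orbit are tied together).

* `orbit_le_of_bounds942` : if `|y|_v = 1` outside `O ∪ S`, `|y|_v⁻¹ ≤ C` on `S ∖ O` and at the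
  infinite places, and `|y|_u > 1 ⇒ |y|_v ≥ 1` for `v ∈ O`, then `|y|_u ≤ C ^ ([K:ℚ] + #(S ∪ O))`;
* `orbit_regular_core942` : `t = r + 2 + r⁻¹`; if `|t|_v ≤ 1` outside `O ∪ S`, `|t|_v ≤ B` on
  `S ∖ O` and at the infinite places, and the orbit condition holds for `r` and `r⁻¹`, then
  `|t|_u ≤ (B + 3) ^ ([K:ℚ] + #(S ∪ O))`.
-/

set_option autoImplicit false

open IsDedekindDomain NumberField

namespace Fermat.Agent.LT.H942

variable {K : Type*} [Field K] [NumberField K]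

theorem orbit_le_of_bounds942 [DecidableEq (HeightOneSpectrum (𝓞 K))]
    (u : HeightOneSpectrum (𝓞 K))
    (O S : Finset (HeightOneSpectrum (𝓞 K))) {C : ℝ} (hC : 1 ≤ C) {y : K} (hy : y ≠ 0)
    (horb : ∀ v ∈ O, 1 < FinitePlace.mk u y → 1 ≤ FinitePlace.mk v y)
    (hout : ∀ v : HeightOneSpectrum (𝓞 K), v ∉ O → v ∉ S → FinitePlace.mk v y = 1)
    (hS : ∀ v ∈ S, v ∉ O → (FinitePlace.mk v y)⁻¹ ≤ C)
    (hinf : ∀ w : InfinitePlace K, (w y)⁻¹ ≤ C) :
    FinitePlace.mk u y ≤ C ^ (Module.finrank ℚ K + (S ∪ O).card) := by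
  classical
  have hC1 : (1 : ℝ) ≤ C ^ (Module.finrank ℚ K + (S ∪ O).card) := one_le_pow₀ hC
  by_cases h1 : FinitePlace.mk u y ≤ 1
  · exact le_trans h1 hC1
  · rw [not_le] at h1
    have hcard : ((S ∪ O).image FinitePlace.mk).card = (S ∪ O).card :=
      Finset.card_image_of_injective _ fun a b hab => FinitePlace.mk_eq_iff.1 hab
    rw [← hcard]
    refine finitePlace_le_of_bounds (K := K) (FinitePlace.mk u) ((S ∪ O).image FinitePlace.mk)
      hC hy ?_ ?_ hinf
    · intro v' _ hv'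
      obtain ⟨v, rfl⟩ : ∃ v, FinitePlace.mk v = v' :=
        ⟨v'.maximalIdeal, FinitePlace.mk_maximalIdeal v'⟩
      have hvSO : v ∉ S ∪ O := fun h => hv' (Finset.mem_image_of_mem _ h)
      exact hout v (fun h => hvSO (Finset.mem_union_right _ h))
        (fun h => hvSO (Finset.mem_union_left _ h))
    · intro v' hv' _
      obtain ⟨v, hv, rfl⟩ := Finset.mem_image.1 hv'
      by_cases hvO : v ∈ O
      · have h2 : 1 ≤ FinitePlace.mk v y := horb v hvO h1
        exact le_trans (inv_le_one_of_one_le₀ h2) hC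
      · exact hS v ((Finset.mem_union.1 hv).resolve_right hvO) hvO

theorem orbit_regular_core942 [DecidableEq (HeightOneSpectrum (𝓞 K))]
    (u : HeightOneSpectrum (𝓞 K))
    (O S : Finset (HeightOneSpectrum (𝓞 K))) {B : ℝ} (hB : 1 ≤ B) {r : K} (hr : r ≠ 0)
    (horb : ∀ v ∈ O, (1 < FinitePlace.mk u r → 1 ≤ FinitePlace.mk v r) ∧
      (1 < FinitePlace.mk u r⁻¹ → 1 ≤ FinitePlace.mk v r⁻¹))
    (hout : ∀ v : HeightOneSpectrum (𝓞 K), v ∉ O → v ∉ S →
      FinitePlace.mk v (r + 2 + r⁻¹) ≤ 1)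
    (hS : ∀ v ∈ S, v ∉ O → FinitePlace.mk v (r + 2 + r⁻¹) ≤ B)
    (hinf : ∀ w : InfinitePlace K, w (r + 2 + r⁻¹) ≤ B) :
    FinitePlace.mk u (r + 2 + r⁻¹) ≤ (B + 3) ^ (Module.finrank ℚ K + (S ∪ O).card) := by
  have hB3 : (1 : ℝ) ≤ B + 3 := by linarith
  have hrinv : r⁻¹ ≠ 0 := inv_ne_zero hr
  have hsym : r⁻¹ + 2 + r⁻¹⁻¹ = r + 2 + r⁻¹ := by rw [inv_inv]; ring
  -- local consequences for `r` and `r⁻¹`
  have hv1 : ∀ v : HeightOneSpectrum (𝓞 K), v ∉ O → v ∉ S → FinitePlace.mk v r = 1 := by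
    intro v hvO hvS
    have h1 : FinitePlace.mk v r ≤ 1 := finitePlace_ratio_le _ le_rfl (hout v hvO hvS)
    have h2 : FinitePlace.mk v r⁻¹ ≤ 1 :=
      finitePlace_ratio_le _ le_rfl (by rw [hsym]; exact hout v hvO hvS)
    rw [map_inv₀] at h2
    have hpos : 0 < FinitePlace.mk v r := FinitePlace.pos_iff.mpr hr
    have h3 : 1 ≤ FinitePlace.mk v r := by
      by_contra hlt
      rw [not_le] at hlt
      have := one_lt_inv₀ hpos |>.mpr hlt
      exact absurd h2 (not_le.mpr this)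
    exact le_antisymm h1 h3
  have hv1' : ∀ v : HeightOneSpectrum (𝓞 K), v ∉ O → v ∉ S → FinitePlace.mk v r⁻¹ = 1 := by
    intro v hvO hvS
    rw [map_inv₀, hv1 v hvO hvS, inv_one]
  have hSr : ∀ v ∈ S, v ∉ O → FinitePlace.mk v r ≤ B + 3 := fun v hv hvO =>
    le_trans (finitePlace_ratio_le _ hB (hS v hv hvO)) (by linarith)
  have hSr' : ∀ v ∈ S, v ∉ O → FinitePlace.mk v r⁻¹ ≤ B + 3 := fun v hv hvO =>
    le_trans (finitePlace_ratio_le _ hB (by rw [hsym]; exact hS v hv hvO)) (by linarith)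
  have hIr : ∀ w : InfinitePlace K, w r ≤ B + 3 := fun w => infinitePlace_ratio_le w (hinf w)
  have hIr' : ∀ w : InfinitePlace K, w r⁻¹ ≤ B + 3 := fun w =>
    infinitePlace_ratio_le w (by rw [hsym]; exact hinf w)
  -- the two bounds at `u`
  have hur : FinitePlace.mk u r ≤ (B + 3) ^ (Module.finrank ℚ K + (S ∪ O).card) :=
    orbit_le_of_bounds942 u O S hB3 hr (fun v hv => (horb v hv).1) hv1
      (fun v hv hvO => by rw [← map_inv₀]; exact hSr' v hv hvO)
      (fun w => by rw [← map_inv₀]; exact hIr' w)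
  have hur' : FinitePlace.mk u r⁻¹ ≤ (B + 3) ^ (Module.finrank ℚ K + (S ∪ O).card) :=
    orbit_le_of_bounds942 u O S hB3 hrinv (fun v hv => (horb v hv).2) hv1'
      (fun v hv hvO => by rw [← map_inv₀, inv_inv]; exact hSr v hv hvO)
      (fun w => by rw [← map_inv₀, inv_inv]; exact hIr w)
  -- ultrametric inequality
  have hM1 : (1 : ℝ) ≤ (B + 3) ^ (Module.finrank ℚ K + (S ∪ O).card) := one_le_pow₀ hB3
  have h2 : FinitePlace.mk u (2 : K) ≤ 1 := by
    have := FinitePlace.add_le (FinitePlace.mk u) (1 : K) 1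
    have h1 : FinitePlace.mk u (1 : K) = 1 := map_one _
    rw [h1, max_self] at this
    have e : (2 : K) = 1 + 1 := by norm_num
    rw [e]; exact this
  calc FinitePlace.mk u (r + 2 + r⁻¹)
      ≤ max (FinitePlace.mk u (r + 2)) (FinitePlace.mk u r⁻¹) := FinitePlace.add_le _ _ _
    _ ≤ max (max (FinitePlace.mk u r) (FinitePlace.mk u 2)) (FinitePlace.mk u r⁻¹) :=
        max_le_max (FinitePlace.add_le _ _ _) le_rfl
    _ ≤ (B + 3) ^ (Module.finrank ℚ K + (S ∪ O).card) :=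
        max_le (max_le hur (le_trans h2 hM1)) hur'

end Fermat.Agent.LT.H942
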