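import Mathlib

/-!
# Row LT, towers T5/T6 — the norm map of a cyclic extension on `2 × 2` matrices (helper942)

OFF-MAIN.  Mathlib only.  `L` a field, `σ : L ≃+* L`, `S = ` entrywise `σ` on `M₂(L)`.

`normMat σ l δ = δ · σ(δ) ⋯ σ^{l-1}(δ)`.  For `σ ^ l = 1` (`hσ : ∀ x, (σ ^ l) x = x`):

* `normMat_twist` : `N(g' δ σ(g)) = g' N(δ) g` for `g' g = 1 = g g'` (σ-conjugate elements have
  conjugate norms);
* `map_normMat` : `σ(N δ) · δ' = δ' · N δ` for `δ' δ = 1 = δ δ'`, i.e. `σ(N δ) = δ⁻¹ (N δ) δ`;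
* `trace_normMat_fixed`, `det_normMat_fixed` : the trace and the determinant of `N δ` are fixed by
  `σ` (so they lie in the fixed field `K` of `σ`);
* `commute_normMat_of_twistCentralizer` : `g' δ σ(g) = δ` ⟹ `g` commutes with `N δ`
  (the σ-centraliser of `δ` lies in the centraliser of `N δ`);
* `exists_conj_companion` : a non-scalar `X ∈ M₂(L)` is conjugate to the companion matrix
  `[[0, -det X], [1, tr X]]` of its characteristic polynomial;
* `normMat_conj_rational` : hence a non-scalar `N δ` is conjugate in `GL₂(L)` to a matrix with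
  σ-fixed entries (`= T6_NormClass` of the T5 interface, regular case).
-/

set_option autoImplicit false

namespace Fermat.Agent.LT.H942

open Matrix

variable {L : Type*} [Field L]

/-- Entrywise action of `σ` on `M₂(L)`, as a ring homomorphism. -/
def sigMat (σ : L ≃+* L) : Matrix (Fin 2) (Fin 2) L →+* Matrix (Fin 2) (Fin 2) L :=
  (σ : L →+* L).mapMatrix

@[simp] theorem sigMat_apply (σ : L ≃+* L) (M : Matrix (Fin 2) (Fin 2) L) (i j : Fin 2) :
    sigMat σ M i j = σ (M i j) := rfl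

/-- `σ^k` entrywise. -/
def sigPow (σ : L ≃+* L) (k : ℕ) : Matrix (Fin 2) (Fin 2) L →+* Matrix (Fin 2) (Fin 2) L :=
  ((σ ^ k : L ≃+* L) : L →+* L).mapMatrix

@[simp] theorem sigPow_apply (σ : L ≃+* L) (k : ℕ) (M : Matrix (Fin 2) (Fin 2) L) (i j : Fin 2) :
    sigPow σ k M i j = (σ ^ k) (M i j) := rfl

theorem sigPow_zero (σ : L ≃+* L) (M : Matrix (Fin 2) (Fin 2) L) : sigPow σ 0 M = M := by
  ext i j; simp

theorem sigPow_succ (σ : L ≃+* L) (k : ℕ) (M : Matrix (Fin 2) (Fin 2) L) :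
    sigPow σ (k + 1) M = sigPow σ k (sigMat σ M) := by
  ext i j
  simp only [sigPow_apply, sigMat_apply, pow_succ]
  rfl

theorem sigPow_succ' (σ : L ≃+* L) (k : ℕ) (M : Matrix (Fin 2) (Fin 2) L) :
    sigPow σ (k + 1) M = sigMat σ (sigPow σ k M) := by
  ext i j
  simp only [sigPow_apply, sigMat_apply, pow_succ']
  rfl

/-- The norm `N δ = δ · σ(δ) ⋯ σ^{l-1}(δ)`. -/
def normMat (σ : L ≃+* L) : ℕ → Matrix (Fin 2) (Fin 2) L → Matrix (Fin 2) (Fin 2) L
  | 0, _ => 1
  | l + 1, δ => normMat σ l δ * sigPow σ l δ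

@[simp] theorem normMat_zero (σ : L ≃+* L) (δ : Matrix (Fin 2) (Fin 2) L) :
    normMat σ 0 δ = 1 := rfl

theorem normMat_succ (σ : L ≃+* L) (l : ℕ) (δ : Matrix (Fin 2) (Fin 2) L) :
    normMat σ (l + 1) δ = normMat σ l δ * sigPow σ l δ := rfl

/-- `N_{l+1} δ = δ · σ(N_l δ)`. -/
theorem normMat_succ' (σ : L ≃+* L) (l : ℕ) (δ : Matrix (Fin 2) (Fin 2) L) :
    normMat σ (l + 1) δ = δ * sigMat σ (normMat σ l δ) := by
  induction l with
  | zero => simp [normMat_succ, sigPow_zero]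
  | succ l ih =>
    calc normMat σ (l + 1 + 1) δ = normMat σ (l + 1) δ * sigPow σ (l + 1) δ := rfl
      _ = δ * sigMat σ (normMat σ l δ) * sigMat σ (sigPow σ l δ) := by rw [ih, sigPow_succ']
      _ = δ * sigMat σ (normMat σ l δ * sigPow σ l δ) := by rw [map_mul, Matrix.mul_assoc]
      _ = δ * sigMat σ (normMat σ (l + 1) δ) := rfl

/-- Telescoping: `N_l(g' δ σ(g)) = g' · N_l(δ) · σ^l(g)`. -/
theorem normMat_twist_aux (σ : L ≃+* L) {g g' : Matrix (Fin 2) (Fin 2) L}
    (h1 : g' * g = 1) (h2 : g * g' = 1) (δ : Matrix (Fin 2) (Fin 2) L) (l : ℕ) :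
    normMat σ l (g' * δ * sigMat σ g) = g' * normMat σ l δ * sigPow σ l g := by
  induction l with
  | zero => simp [sigPow_zero, h1]
  | succ l ih =>
    rw [normMat_succ, ih, normMat_succ, map_mul, map_mul, ← sigPow_succ]
    have hc : sigPow σ l g * sigPow σ l g' = 1 := by rw [← map_mul, h2, map_one]
    calc g' * normMat σ l δ * sigPow σ l g * (sigPow σ l g' * sigPow σ l δ * sigPow σ (l + 1) g)
        = g' * normMat σ l δ * (sigPow σ l g * sigPow σ l g') * sigPow σ l δ
            * sigPow σ (l + 1) g := by simp only [Matrix.mul_assoc]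
      _ = g' * (normMat σ l δ * sigPow σ l δ) * sigPow σ (l + 1) g := by
          rw [hc]; simp only [Matrix.mul_assoc, Matrix.mul_one]

theorem sigPow_of_pow_eq_one (σ : L ≃+* L) {l : ℕ} (hσ : ∀ x : L, (σ ^ l) x = x)
    (M : Matrix (Fin 2) (Fin 2) L) : sigPow σ l M = M := by
  ext i j
  simp [hσ]

/-- **σ-conjugate elements have conjugate norms.** -/
theorem normMat_twist (σ : L ≃+* L) {l : ℕ} (hσ : ∀ x : L, (σ ^ l) x = x)
    {g g' : Matrix (Fin 2) (Fin 2) L} (h1 : g' * g = 1) (h2 : g * g' = 1)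
    (δ : Matrix (Fin 2) (Fin 2) L) :
    normMat σ l (g' * δ * sigMat σ g) = g' * normMat σ l δ * g := by
  rw [normMat_twist_aux σ h1 h2, sigPow_of_pow_eq_one σ hσ]

/-- **`σ(N δ) = δ⁻¹ (N δ) δ`**, in the form `δ · σ(N δ) = N δ · δ`. -/
theorem mul_map_normMat (σ : L ≃+* L) {l : ℕ} (hσ : ∀ x : L, (σ ^ l) x = x)
    (δ : Matrix (Fin 2) (Fin 2) L) :
    δ * sigMat σ (normMat σ l δ) = normMat σ l δ * δ := by
  rw [← normMat_succ', normMat_succ, sigPow_of_pow_eq_one σ hσ]

theorem map_normMat (σ : L ≃+* L) {l : ℕ} (hσ : ∀ x : L, (σ ^ l) x = x)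
    {δ δ' : Matrix (Fin 2) (Fin 2) L} (h1 : δ' * δ = 1) :
    sigMat σ (normMat σ l δ) = δ' * normMat σ l δ * δ := by
  have h := mul_map_normMat σ hσ δ
  calc sigMat σ (normMat σ l δ) = (δ' * δ) * sigMat σ (normMat σ l δ) := by
        rw [h1, Matrix.one_mul]
    _ = δ' * (δ * sigMat σ (normMat σ l δ)) := by rw [Matrix.mul_assoc]
    _ = δ' * normMat σ l δ * δ := by rw [h, Matrix.mul_assoc]

theorem trace_sigMat (σ : L ≃+* L) (M : Matrix (Fin 2) (Fin 2) L) :
    (sigMat σ M).trace = σ M.trace := by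
  simp [Matrix.trace_fin_two]

theorem det_sigMat (σ : L ≃+* L) (M : Matrix (Fin 2) (Fin 2) L) :
    (sigMat σ M).det = σ M.det := by
  simp [Matrix.det_fin_two]

/-- The trace of `N δ` is fixed by `σ`. -/
theorem trace_normMat_fixed (σ : L ≃+* L) {l : ℕ} (hσ : ∀ x : L, (σ ^ l) x = x)
    {δ δ' : Matrix (Fin 2) (Fin 2) L} (h1 : δ' * δ = 1) (h2 : δ * δ' = 1) :
    σ (normMat σ l δ).trace = (normMat σ l δ).trace := by
  rw [← trace_sigMat, map_normMat σ hσ h1, Matrix.trace_mul_comm, ← Matrix.mul_assoc, h2,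
    Matrix.one_mul]

/-- The determinant of `N δ` is fixed by `σ`. -/
theorem det_normMat_fixed (σ : L ≃+* L) {l : ℕ} (hσ : ∀ x : L, (σ ^ l) x = x)
    {δ δ' : Matrix (Fin 2) (Fin 2) L} (h1 : δ' * δ = 1) :
    σ (normMat σ l δ).det = (normMat σ l δ).det := by
  rw [← det_sigMat, map_normMat σ hσ h1, Matrix.det_mul, Matrix.det_mul]
  have hd : δ'.det * δ.det = 1 := by rw [← Matrix.det_mul, h1, Matrix.det_one]
  linear_combination (normMat σ l δ).det * hd

/-- **The σ-centraliser of `δ` lies in the centraliser of `N δ`.** -/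
theorem commute_normMat_of_twistCentralizer (σ : L ≃+* L) {l : ℕ}
    (hσ : ∀ x : L, (σ ^ l) x = x) {g g' δ : Matrix (Fin 2) (Fin 2) L}
    (h1 : g' * g = 1) (h2 : g * g' = 1) (hc : g' * δ * sigMat σ g = δ) :
    g * normMat σ l δ = normMat σ l δ * g := by
  have h := normMat_twist σ hσ h1 h2 δ
  rw [hc] at h
  calc g * normMat σ l δ = g * (g' * normMat σ l δ * g) := by rw [← h]
    _ = (g * g') * normMat σ l δ * g := by simp only [Matrix.mul_assoc]
    _ = normMat σ l δ * g := by rw [h2, Matrix.one_mul]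

/-- The companion matrix of `X² - t X + d`. -/
def companionMat (t d : L) : Matrix (Fin 2) (Fin 2) L := !![0, -d; 1, t]

/-- **Rational canonical form in dimension two**: a matrix `X` which is not scalar is conjugate
to the companion matrix of its characteristic polynomial: `X Q = Q C` with `det Q ≠ 0`. -/
theorem exists_conj_companion (X : Matrix (Fin 2) (Fin 2) L)
    (hX : ¬ (X 0 1 = 0 ∧ X 1 0 = 0 ∧ X 0 0 = X 1 1)) :
    ∃ Q : Matrix (Fin 2) (Fin 2) L, Q.det ≠ 0 ∧ X * Q = Q * companionMat X.trace X.det := by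
  by_cases hb : X 0 1 = 0
  · by_cases hc : X 1 0 = 0
    · have had : X 1 1 - X 0 0 ≠ 0 := by
        intro hh
        exact hX ⟨hb, hc, (sub_eq_zero.mp hh).symm⟩
      refine ⟨!![1, X 0 0; 1, X 1 1], ?_, ?_⟩
      · rw [Matrix.det_fin_two]
        simpa using had
      · ext i j
        fin_cases i <;> fin_cases j <;>
          simp [companionMat, Matrix.mul_apply, Fin.sum_univ_two, Matrix.trace_fin_two,
            Matrix.det_fin_two, hb, hc] <;> ring
    · refine ⟨!![1, X 0 0; 0, X 1 0], ?_, ?_⟩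
      · rw [Matrix.det_fin_two]
        simpa using hc
      · ext i j
        fin_cases i <;> fin_cases j <;>
          simp [companionMat, Matrix.mul_apply, Fin.sum_univ_two, Matrix.trace_fin_two,
            Matrix.det_fin_two, hb] <;> ring
  · refine ⟨!![0, X 0 1; 1, X 1 1], ?_, ?_⟩
    · rw [Matrix.det_fin_two]
      simpa using hb
    · ext i j
      fin_cases i <;> fin_cases j <;>
        simp [companionMat, Matrix.mul_apply, Fin.sum_univ_two, Matrix.trace_fin_two,
          Matrix.det_fin_two] <;> ring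

/-- **Norm classes are rational** (regular case): if `N δ` is not scalar, it is conjugate in
`GL₂(L)` to a matrix `γ` all of whose entries are fixed by `σ`, with the same trace and
determinant. -/
theorem normMat_conj_rational (σ : L ≃+* L) {l : ℕ} (hσ : ∀ x : L, (σ ^ l) x = x)
    {δ δ' : Matrix (Fin 2) (Fin 2) L} (h1 : δ' * δ = 1) (h2 : δ * δ' = 1)
    (hreg : ¬ ((normMat σ l δ) 0 1 = 0 ∧ (normMat σ l δ) 1 0 = 0 ∧
      (normMat σ l δ) 0 0 = (normMat σ l δ) 1 1)) :
    ∃ Q γ : Matrix (Fin 2) (Fin 2) L, Q.det ≠ 0 ∧ normMat σ l δ * Q = Q * γ ∧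
      (∀ i j, σ (γ i j) = γ i j) ∧ γ.trace = (normMat σ l δ).trace ∧
      γ.det = (normMat σ l δ).det := by
  obtain ⟨Q, hQ, hconj⟩ := exists_conj_companion (normMat σ l δ) hreg
  refine ⟨Q, companionMat (normMat σ l δ).trace (normMat σ l δ).det, hQ, hconj, ?_, ?_, ?_⟩
  · intro i j
    have ht := trace_normMat_fixed σ hσ h1 h2
    have hd := det_normMat_fixed σ hσ h1
    fin_cases i <;> fin_cases j <;> simp [companionMat, ht, hd]
  · simp [companionMat, Matrix.trace_fin_two]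
  · simp [companionMat, Matrix.det_fin_two]

end Fermat.Agent.LT.H942
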